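import Fermat.Agent.AverageRank.Covariant

/-!
# The number of classes of binary quartic forms

The classes of forms without rational zero with `4 I³ ≠ J²`, `|I| ≤ Y²`, `|J| ≤ Y³` number
`O(Y⁵)`: a reduced form of scale `(u, v)` has about `v / u` translates in a box with `O((u v)¹⁰)`
points.
-/

set_option autoImplicit false

noncomputable section

open FA.SiegelPoints Finset
open scoped Classical

namespace FA.AverageRank

/-- The class under `SL₂(ℤ)`. -/
def slClass (F : QuarticForm) : Set QuarticForm :=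
  {G | ∃ p q r s : ℤ, p * s - q * r = 1 ∧ F.act p q r s = G}

theorem act_one (F : QuarticForm) : F.act 1 0 0 1 = F := by
  ext <;> simp [QuarticForm.act, QuarticForm.eval]

theorem mem_slClass_self (F : QuarticForm) : F ∈ slClass F :=
  ⟨1, 0, 0, 1, by norm_num, act_one F⟩

theorem slClass_subset {F G : QuarticForm} (h : G ∈ slClass F) : slClass G ⊆ slClass F := by
  obtain ⟨p, q, r, s, hd, rfl⟩ := h
  rintro H ⟨p', q', r', s', hd', rfl⟩
  exact ⟨p * p' + q * r', p * q' + q * s', r * p' + s * r', r * q' + s * s',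
    by linear_combination (p' * s' - q' * r') * hd + hd', (F.act_act p q r s p' q' r' s').symm⟩

theorem mem_slClass_symm {F G : QuarticForm} (h : G ∈ slClass F) : F ∈ slClass G := by
  obtain ⟨p, q, r, s, hd, rfl⟩ := h
  refine ⟨s, -q, -r, p, by linear_combination hd, ?_⟩
  rw [F.act_act]
  have e1 : p * s + q * -r = 1 := by linear_combination hd
  have e2 : r * -q + s * p = 1 := by linear_combination hd
  rw [e1, e2, show p * -q + q * p = 0 by ring, show r * s + s * -r = 0 by ring, act_one]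

theorem slClass_eq {F G : QuarticForm} (h : G ∈ slClass F) : slClass G = slClass F :=
  (slClass_subset h).antisymm (slClass_subset (mem_slClass_symm h))

theorem anisotropic_act {F : QuarticForm} (h : F.Anisotropic) {p q r s : ℤ}
    (hdet : p * s - q * r = 1) : (F.act p q r s).Anisotropic := by
  intro X Y hXY
  rw [QuarticForm.eval_act] at hXY
  obtain ⟨h1, h2⟩ := h _ _ hXY
  simp only [Int.cast_id] at h1 h2
  constructor
  · linear_combination s * h1 - q * h2 - X * hdet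
  · linear_combination p * h2 - r * h1 - Y * hdet

theorem anisotropic_a {F : QuarticForm} (h : F.Anisotropic) : F.a ≠ 0 := fun ha =>
  one_ne_zero (h 1 0 (by simp [QuarticForm.eval, ha])).1

/-- Translates stay in a box twice as long. -/
theorem inBox_translate {G : QuarticForm} {u v : ℝ} (h : InBox G u v) (hu : 0 ≤ u) {k : ℕ}
    (hk : (k : ℝ) * u ≤ v) : InBox (G.act 1 k 0 1) u (2 * v) := by
  obtain ⟨ha, hb, hc, hd, he⟩ := h
  have hv : 0 ≤ v := le_trans (by positivity) hk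
  have hk0 : (0 : ℝ) ≤ k := Nat.cast_nonneg k
  have k2 : ((k : ℝ) * u) ^ 2 ≤ v ^ 2 := pow_le_pow_left₀ (by positivity) hk 2
  have k3 : ((k : ℝ) * u) ^ 3 ≤ v ^ 3 := pow_le_pow_left₀ (by positivity) hk 3
  have k4 : ((k : ℝ) * u) ^ 4 ≤ v ^ 4 := pow_le_pow_left₀ (by positivity) hk 4
  have t : ∀ {X m : ℝ}, |X| ≤ m → ∀ {c : ℝ}, 0 ≤ c → |c * X| ≤ c * m := by
    intro X m h c hc
    rw [abs_mul, abs_of_nonneg hc]
    exact mul_le_mul_of_nonneg_left h hc
  refine ⟨?_, ?_, ?_, ?_, ?_⟩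
  · rw [show ((G.act 1 k 0 1).a : ℝ) = G.a by simp [QuarticForm.act, QuarticForm.eval]]
    exact ha
  · rw [show ((G.act 1 k 0 1).b : ℝ) = G.b + 4 * k * G.a by
      simp [QuarticForm.act]; ring]
    refine (abs_add_le _ _).trans ((add_le_add hb (t ha (by positivity))).trans ?_)
    have := mul_le_mul_of_nonneg_left hk (by positivity : (0 : ℝ) ≤ 4 * u ^ 3)
    nlinarith
  · rw [show ((G.act 1 k 0 1).c : ℝ) = G.c + 3 * k * G.b + 6 * (k : ℝ) ^ 2 * G.a by
      simp [QuarticForm.act]; ring]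
    refine (abs_add_three _ _ _).trans ((add_le_add (add_le_add hc (t hb (by positivity)))
      (t ha (by positivity))).trans ?_)
    have e1 := mul_le_mul_of_nonneg_left hk (by positivity : (0 : ℝ) ≤ 12 * u ^ 2 * v)
    have e2 := mul_le_mul_of_nonneg_left k2 (by positivity : (0 : ℝ) ≤ 6 * u ^ 2)
    nlinarith
  · rw [show ((G.act 1 k 0 1).d : ℝ) =
        G.d + 2 * k * G.c + 3 * (k : ℝ) ^ 2 * G.b + 4 * (k : ℝ) ^ 3 * G.a by
      simp [QuarticForm.act]; ring]
    refine (abs_add_le _ _).trans ((add_le_add ((abs_add_three _ _ _).trans (add_le_add (add_le_add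
      hd (t hc (by positivity))) (t hb (by positivity)))) (t ha (by positivity))).trans ?_)
    have e1 := mul_le_mul_of_nonneg_left hk (by positivity : (0 : ℝ) ≤ 12 * u * v ^ 2)
    have e2 := mul_le_mul_of_nonneg_left k2 (by positivity : (0 : ℝ) ≤ 12 * u * v)
    have e3 := mul_le_mul_of_nonneg_left k3 (by positivity : (0 : ℝ) ≤ 4 * u)
    nlinarith
  · rw [show ((G.act 1 k 0 1).e : ℝ) = G.e + k * G.d + (k : ℝ) ^ 2 * G.c + (k : ℝ) ^ 3 * G.b +
        (k : ℝ) ^ 4 * G.a by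
      simp [QuarticForm.act, QuarticForm.eval]; ring]
    refine (abs_add_le _ _).trans ((add_le_add ((abs_add_le _ _).trans (add_le_add
      ((abs_add_three _ _ _).trans (add_le_add (add_le_add he (t hd hk0)) (t hc (by positivity))))
      (t hb (by positivity)))) (t ha (by positivity))).trans ?_)
    have e1 := mul_le_mul_of_nonneg_left hk (by positivity : (0 : ℝ) ≤ 4 * v ^ 3)
    have e2 := mul_le_mul_of_nonneg_left k2 (by positivity : (0 : ℝ) ≤ 6 * v ^ 2)
    have e3 := mul_le_mul_of_nonneg_left k3 (by positivity : (0 : ℝ) ≤ 4 * v)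
    nlinarith [k4]

/-- The integral forms in a box. -/
def boxForms (U V : ℕ) : Finset QuarticForm :=
  ((Icc (-(U ^ 4 : ℤ)) (U ^ 4)) ×ˢ ((Icc (-(4 * U ^ 3 * V : ℤ)) (4 * U ^ 3 * V)) ×ˢ
    ((Icc (-(6 * U ^ 2 * V ^ 2 : ℤ)) (6 * U ^ 2 * V ^ 2)) ×ˢ
      ((Icc (-(4 * U * V ^ 3 : ℤ)) (4 * U * V ^ 3)) ×ˢ (Icc (-(V ^ 4 : ℤ)) (V ^ 4)))))).image
    fun t => QuarticForm.mk t.1 t.2.1 t.2.2.1 t.2.2.2.1 t.2.2.2.2

theorem card_Icc_sym (n : ℕ) : (Icc (-(n : ℤ)) n).card = 2 * n + 1 := by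
  rw [Int.card_Icc]; omega

theorem card_boxForms {U V : ℕ} (hU : 1 ≤ U) (hV : 1 ≤ V) :
    (boxForms U V).card ≤ 28431 * (U * V) ^ 10 := by
  refine Finset.card_image_le.trans ?_
  simp only [Finset.card_product]
  have h : ∀ n : ℕ, 1 ≤ n → (Icc (-(n : ℤ)) n).card ≤ 3 * n := fun n hn => by
    rw [card_Icc_sym]; omega
  have h1 := h (U ^ 4) (Nat.one_le_pow _ _ hU)
  have h2 := h (4 * U ^ 3 * V) (Nat.one_le_iff_ne_zero.mpr (by positivity))
  have h3 := h (6 * U ^ 2 * V ^ 2) (Nat.one_le_iff_ne_zero.mpr (by positivity))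
  have h4 := h (4 * U * V ^ 3) (Nat.one_le_iff_ne_zero.mpr (by positivity))
  have h5 := h (V ^ 4) (Nat.one_le_pow _ _ hV)
  push_cast at h1 h2 h3 h4 h5
  refine (Nat.mul_le_mul h1 (Nat.mul_le_mul h2 (Nat.mul_le_mul h3 (Nat.mul_le_mul h4 h5)))).trans ?_
  ring_nf
  exact Nat.mul_le_mul_left _ (by norm_num)

theorem mem_boxForms {G : QuarticForm} {u v : ℝ} (h : InBox G u v) {U V : ℕ} (hu : 0 ≤ u)
    (hv : 0 ≤ v) (hU : u ≤ U) (hV : v ≤ V) : G ∈ boxForms U V := by
  obtain ⟨ha, hb, hc, hd, he⟩ := h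
  have i : ∀ {z : ℤ} {m : ℝ} {n : ℕ}, |(z : ℝ)| ≤ m → m ≤ n → -(n : ℤ) ≤ z ∧ z ≤ n := by
    intro z m n h1 h2
    have h3 := h1.trans h2
    rw [abs_le] at h3
    exact ⟨by exact_mod_cast h3.1, by exact_mod_cast h3.2⟩
  have p4 : ∀ {x : ℝ} {n : ℕ}, 0 ≤ x → x ≤ n → ∀ j : ℕ, x ^ j ≤ (n : ℝ) ^ j :=
    fun h1 h2 j => pow_le_pow_left₀ h1 h2 j
  refine mem_image.mpr ⟨(G.a, G.b, G.c, G.d, G.e), ?_, rfl⟩
  simp only [mem_product, mem_Icc]
  have a' := i ha (n := U ^ 4) (by push_cast; exact p4 hu hU 4)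
  have b' := i hb (n := 4 * U ^ 3 * V) (by
    push_cast
    exact mul_le_mul (mul_le_mul_of_nonneg_left (p4 hu hU 3) (by norm_num)) hV hv (by positivity))
  have c' := i hc (n := 6 * U ^ 2 * V ^ 2) (by
    push_cast
    exact mul_le_mul (mul_le_mul_of_nonneg_left (p4 hu hU 2) (by norm_num)) (p4 hv hV 2)
      (by positivity) (by positivity))
  have d' := i hd (n := 4 * U * V ^ 3) (by
    push_cast
    exact mul_le_mul (mul_le_mul_of_nonneg_left hU (by norm_num)) (p4 hv hV 3) (by positivity)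
      (by positivity))
  have e' := i he (n := V ^ 4) (by push_cast; exact p4 hv hV 4)
  push_cast at a' b' c' d' e'
  exact ⟨a', b', c', d', e'⟩

/-- The forms counted: no rational zero, nondegenerate, bounded invariants. -/
def Counted (Y : ℝ) (F : QuarticForm) : Prop :=
  F.Nondegenerate ∧ F.Anisotropic ∧ |(F.invI : ℝ)| ≤ Y ^ 2 ∧ |(F.invJ : ℝ)| ≤ Y ^ 3

/-- Classes with a representative at the scale `2 ^ i`, `2 ^ (i + m)`. -/
def ScaleAt (i m : ℕ) (c : Set QuarticForm) : Prop :=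
  ∃ G : QuarticForm, c = slClass G ∧ G.a ≠ 0 ∧
    ∀ k : ℕ, k ≤ 2 ^ m / 2 → G.act 1 k 0 1 ∈ boxForms (2 ^ i) (2 ^ (i + m + 1))

theorem exists_scale {Y : ℝ} (hY : 0 ≤ Y) {L : ℕ} (hL : 256 * Y ≤ (4 : ℝ) ^ L) {F : QuarticForm}
    (hF : Counted Y F) : ∃ i m : ℕ, 2 * i + m ≤ L ∧ ScaleAt i m (slClass F) := by
  obtain ⟨hn, han, hI, hJ⟩ := hF
  obtain ⟨p, q, r, s, hdet, u, v, hu, huv, hprod, hbox⟩ := exists_reduced hn han hY hI hJ
  have hex : ∀ w : ℝ, 1 ≤ w → ∃ j : ℕ, w ≤ (2 : ℝ) ^ j ∧ (2 : ℝ) ^ j < 2 * w := by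
    intro w hw
    obtain ⟨n, h1, h2⟩ := exists_nat_pow_near hw (by norm_num : (1 : ℝ) < 2)
    rcases h1.lt_or_eq with h | h
    · exact ⟨n + 1, h2.le, by rw [pow_succ]; linarith⟩
    · exact ⟨n, h.ge, by rw [h]; linarith⟩
  obtain ⟨i, hi1, hi2⟩ := hex u hu
  obtain ⟨j, hj1, hj2⟩ := hex v (hu.trans huv)
  have hij : i ≤ j := by
    by_contra h
    have : (2 : ℝ) ^ (j + 1) ≤ 2 ^ i := pow_le_pow_right₀ (by norm_num) (by omega)
    rw [pow_succ] at this
    linarith
  obtain ⟨m, rfl⟩ : ∃ m, j = i + m := ⟨j - i, by omega⟩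
  refine ⟨i, m, ?_, F.act p q r s, ?_, anisotropic_a (anisotropic_act han hdet), fun k hk => ?_⟩
  · by_contra h
    have h1 : (2 : ℝ) ^ (2 * i + m) < 4 * (u * v) := by
      rw [show 2 * i + m = i + (i + m) by ring, pow_add]
      have := mul_lt_mul'' hi2 hj2 (by positivity) (by positivity)
      linarith
    have h2 : (2 : ℝ) ^ (L + 1) ≤ 2 ^ (2 * i + m) := pow_le_pow_right₀ (by norm_num) (by omega)
    have h3 : ((2 : ℝ) ^ L * 2) ^ 2 < (4 * (u * v)) ^ 2 :=
      pow_lt_pow_left₀ (by rw [← pow_succ]; linarith) (by positivity) two_ne_zero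
    rw [show (4 : ℝ) ^ L = ((2 : ℝ) ^ L) ^ 2 by rw [← pow_mul, mul_comm, pow_mul]; norm_num] at hL
    nlinarith
  · exact (slClass_eq ⟨p, q, r, s, hdet, rfl⟩).symm
  · have hku : (k : ℝ) * u ≤ v := by
      have h2 : (2 * k : ℕ) ≤ 2 ^ m := by omega
      have h2' : (2 : ℝ) * k ≤ 2 ^ m := by exact_mod_cast h2
      have h3 := mul_le_mul_of_nonneg_left hi1 (Nat.cast_nonneg (α := ℝ) k)
      have h4 := mul_le_mul_of_nonneg_right h2' (by positivity : (0 : ℝ) ≤ 2 ^ i)
      rw [pow_add] at hj2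
      linarith
    refine mem_boxForms (inBox_translate hbox (by linarith) hku) (by linarith) (by linarith)
      (by exact_mod_cast hi1) ?_
    push_cast
    rw [pow_succ]
    linarith

theorem card_scale {i m : ℕ} (S : Finset (Set QuarticForm)) (hS : ∀ c ∈ S, ScaleAt i m c) :
    S.card ≤ 2 * 28431 * 2 ^ 10 * (2 ^ (20 * i + 9 * m)) := by
  choose G hc ha hk using hS
  have h : (S ×ˢ range (2 ^ m / 2 + 1)).card ≤ (boxForms (2 ^ i) (2 ^ (i + m + 1))).card := by
    refine card_le_card_of_injOn (fun x => if hx : x.1 ∈ S then (G x.1 hx).act 1 (x.2 : ℕ) 0 1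
      else QuarticForm.mk 0 0 0 0 0) ?_ ?_
    · rintro ⟨c, k⟩ hx
      obtain ⟨h1, h2⟩ := mem_product.mp hx
      simp only [Finset.mem_coe]
      rw [dif_pos h1]
      exact hk c h1 k (by have := mem_range.mp h2; omega)
    · rintro ⟨c, k⟩ hx ⟨c', k'⟩ hx' e
      obtain ⟨h1, -⟩ := mem_product.mp hx
      obtain ⟨h1', -⟩ := mem_product.mp hx'
      simp only [dif_pos h1, dif_pos h1'] at e
      have ec : c = c' := by
        rw [hc c h1, hc c' h1', ← slClass_eq (G := (G c h1).act 1 k 0 1) ⟨1, k, 0, 1, by ring, rfl⟩,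
          e]
        exact slClass_eq ⟨1, k', 0, 1, by ring, rfl⟩
      subst ec
      have eb := congrArg QuarticForm.b e
      simp [QuarticForm.act] at eb
      rcases eb with eb | eb
      · exact Prod.ext rfl eb
      · exact absurd eb (ha c h1)
  have h2 := h.trans (card_boxForms (Nat.one_le_two_pow) (Nat.one_le_two_pow))
  rw [card_product, card_range, ← pow_add] at h2
  refine Nat.le_of_mul_le_mul_right ?_ (Nat.two_pow_pos m)
  have h3 : S.card * 2 ^ m ≤ 2 * (S.card * (2 ^ m / 2 + 1)) := by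
    rw [mul_left_comm]
    refine Nat.mul_le_mul_left _ ?_
    omega
  refine h3.trans ((Nat.mul_le_mul_left 2 h2).trans (le_of_eq ?_))
  rw [← pow_mul, show (i + (i + m + 1)) * 10 = 10 + (20 * i + 9 * m) + m by ring, pow_add, pow_add]
  ring

/-- The classes counted. -/
def countedClasses (Y : ℝ) : Set (Set QuarticForm) := slClass '' {F | Counted Y F}

theorem card_classes {Y : ℝ} (hY : 0 ≤ Y) {L : ℕ} (hL : 256 * Y ≤ (4 : ℝ) ^ L)
    (S : Finset (Set QuarticForm)) (hS : ↑S ⊆ countedClasses Y) :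
    S.card ≤ 4 * (2 * 28431 * 2 ^ 10) * 2 ^ (10 * L) := by
  set K := 2 * 28431 * 2 ^ 10
  have hcov : S ⊆ (range (L / 2 + 1)).biUnion fun i => (range (L - 2 * i + 1)).biUnion fun m =>
      S.filter (ScaleAt i m) := by
    intro c hc
    obtain ⟨F, hF, rfl⟩ := hS (mem_coe.mpr hc)
    obtain ⟨i, m, him, hsc⟩ := exists_scale hY hL hF
    exact mem_biUnion.mpr ⟨i, mem_range.mpr (by omega), mem_biUnion.mpr
      ⟨m, mem_range.mpr (by omega), mem_filter.mpr ⟨hc, hsc⟩⟩⟩
  refine (card_le_card hcov).trans (card_biUnion_le.trans ?_)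
  have hgeo : ∀ a n : ℕ, 2 ≤ a → ∑ j ∈ range (n + 1), a ^ j ≤ 2 * a ^ n := by
    intro a n ha
    induction n with
    | zero => simp
    | succ n ih =>
      rw [sum_range_succ, pow_succ]
      have h := Nat.mul_le_mul_left (a ^ n) ha
      linarith
  calc ∑ i ∈ range (L / 2 + 1),
        ((range (L - 2 * i + 1)).biUnion fun m => S.filter (ScaleAt i m)).card
      ≤ ∑ i ∈ range (L / 2 + 1), 2 * K * (2 ^ (9 * L) * (2 ^ 2) ^ i) := by
        refine sum_le_sum fun i hi => ?_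
        have hi' : 2 * i ≤ L := by have := mem_range.mp hi; omega
        refine card_biUnion_le.trans ((sum_le_sum fun m _ =>
          card_scale _ fun c hc => (mem_filter.mp hc).2).trans ?_)
        rw [← mul_sum]
        have e : ∑ m ∈ range (L - 2 * i + 1), 2 ^ (20 * i + 9 * m) ≤
            2 * (2 ^ (9 * L) * (2 ^ 2) ^ i) := by
          have h := hgeo (2 ^ 9) (L - 2 * i) (by norm_num)
          calc ∑ m ∈ range (L - 2 * i + 1), 2 ^ (20 * i + 9 * m)
              = 2 ^ (20 * i) * ∑ m ∈ range (L - 2 * i + 1), (2 ^ 9) ^ m := by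
                rw [mul_sum]; exact sum_congr rfl fun m _ => by rw [pow_add, pow_mul 2 9 m]
            _ ≤ 2 ^ (20 * i) * (2 * (2 ^ 9) ^ (L - 2 * i)) := Nat.mul_le_mul_left _ h
            _ = _ := by
              rw [mul_left_comm, ← pow_mul, ← pow_mul, ← pow_add, ← pow_add]
              congr 2
              omega
        calc _ ≤ K * (2 * (2 ^ (9 * L) * (2 ^ 2) ^ i)) := Nat.mul_le_mul_left _ e
          _ = _ := by ring
    _ ≤ _ := by
        rw [← mul_sum, ← mul_sum]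
        calc 2 * K * (2 ^ (9 * L) * ∑ i ∈ range (L / 2 + 1), (2 ^ 2) ^ i)
            ≤ 2 * K * (2 ^ (9 * L) * (2 * 2 ^ L)) := by
              refine Nat.mul_le_mul_left _ (Nat.mul_le_mul_left _
                ((hgeo (2 ^ 2) (L / 2) (by norm_num)).trans (Nat.mul_le_mul_left _ ?_)))
              rw [← pow_mul]
              exact Nat.pow_le_pow_right (by norm_num) (by omega)
          _ = _ := by ring

/-- **The number of classes is `O(Y⁵)`.** -/
theorem exists_class_bound : ∃ C : ℕ, ∀ Y : ℝ, 1 ≤ Y → (countedClasses Y).Finite ∧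
    ((countedClasses Y).ncard : ℝ) ≤ C * Y ^ 5 := by
  refine ⟨4 * (2 * 28431 * 2 ^ 10) * 1024 ^ 5, fun Y hY => ?_⟩
  obtain ⟨n, h1, h2⟩ := exists_nat_pow_near (show (1 : ℝ) ≤ 256 * Y by linarith)
    (by norm_num : (1 : ℝ) < 4)
  have hL : 256 * Y ≤ (4 : ℝ) ^ (n + 1) := h2.le
  have hb := fun S hS => card_classes (by linarith : (0 : ℝ) ≤ Y) hL S hS
  have hfin : (countedClasses Y).Finite := by
    by_contra h
    obtain ⟨S, hS, hcard⟩ := (Set.not_finite.mp h).exists_subset_card_eq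
      (4 * (2 * 28431 * 2 ^ 10) * 2 ^ (10 * (n + 1)) + 1)
    have := hb S hS
    omega
  refine ⟨hfin, ?_⟩
  rw [Set.ncard_eq_toFinset_card _ hfin]
  refine (Nat.cast_le.mpr (hb hfin.toFinset (by simp))).trans ?_
  rw [Nat.cast_mul, Nat.cast_mul (4 * (2 * 28431 * 2 ^ 10)) (1024 ^ 5)]
  refine le_of_le_of_eq (mul_le_mul_of_nonneg_left ?_ (Nat.cast_nonneg _)) (mul_assoc _ _ _).symm
  push_cast
  rw [show (1125899906842624 : ℝ) = 1024 ^ 5 by norm_num, ← mul_pow]
  rw [show (2 : ℝ) ^ (10 * (n + 1)) = ((4 : ℝ) ^ (n + 1)) ^ 5 by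
    rw [← pow_mul, show (4 : ℝ) = 2 ^ 2 by norm_num, ← pow_mul]
    congr 1
    ring]
  refine pow_le_pow_left₀ (by positivity) ?_ 5
  rw [pow_succ]
  linarith

end FA.AverageRank
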