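import Fermat.Agent.SiegelPoints.Quartic

/-!
# Reduced binary quartic forms

A form without rational zero and with `|I| ≤ Y²`, `|J| ≤ Y³` is equivalent to one in a box
`|a| ≤ u⁴`, `|b| ≤ 4 u³ v`, `|c| ≤ 6 u² v²`, `|d| ≤ 4 u v³`, `|e| ≤ v⁴` with `1 ≤ u ≤ v` and
`(u v)² ≤ 16 Y`.
-/

set_option autoImplicit false

noncomputable section

open FA.SiegelPoints
open scoped ComplexConjugate

namespace FA.AverageRank

/-- The box with parameters `u`, `v`. -/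
def InBox (G : QuarticForm) (u v : ℝ) : Prop :=
  |(G.a : ℝ)| ≤ u ^ 4 ∧ |(G.b : ℝ)| ≤ 4 * u ^ 3 * v ∧ |(G.c : ℝ)| ≤ 6 * u ^ 2 * v ^ 2 ∧
    |(G.d : ℝ)| ≤ 4 * u * v ^ 3 ∧ |(G.e : ℝ)| ≤ v ^ 4

/-- The invariants bound the products of complementary differences of roots, homogeneously. -/
theorem abs_mul_sub_le_height {Y : ℝ} (hY : 0 ≤ Y) {I J : ℤ} (hIY : |(I : ℝ)| ≤ Y ^ 2)
    (hJY : |(J : ℝ)| ≤ Y ^ 3) {a : ℤ} {t₀ t₁ t₂ t₃ : ℂ}
    (hI : (I : ℂ) = (a : ℂ) ^ 2 * (12 * (t₀ * t₁ * t₂ * t₃) -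
      3 * ((t₀ + t₁ + t₂ + t₃) * (t₀ * t₁ * t₂ + t₀ * t₁ * t₃ + t₀ * t₂ * t₃ + t₁ * t₂ * t₃)) +
      (t₀ * t₁ + t₀ * t₂ + t₀ * t₃ + t₁ * t₂ + t₁ * t₃ + t₂ * t₃) ^ 2))
    (hJ : (J : ℂ) = (a : ℂ) ^ 3 * (72 * (t₀ * t₁ + t₀ * t₂ + t₀ * t₃ + t₁ * t₂ + t₁ * t₃ +
        t₂ * t₃) * (t₀ * t₁ * t₂ * t₃) +
      9 * (t₀ + t₁ + t₂ + t₃) * (t₀ * t₁ + t₀ * t₂ + t₀ * t₃ + t₁ * t₂ + t₁ * t₃ + t₂ * t₃) *
        (t₀ * t₁ * t₂ + t₀ * t₁ * t₃ + t₀ * t₂ * t₃ + t₁ * t₂ * t₃) -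
      27 * (t₀ * t₁ * t₂ + t₀ * t₁ * t₃ + t₀ * t₂ * t₃ + t₁ * t₂ * t₃) ^ 2 -
      27 * (t₀ * t₁ * t₂ * t₃) * (t₀ + t₁ + t₂ + t₃) ^ 2 -
      2 * (t₀ * t₁ + t₀ * t₂ + t₀ * t₃ + t₁ * t₂ + t₁ * t₃ + t₂ * t₃) ^ 3)) :
    |(a : ℝ)| * (‖t₀ - t₁‖ * ‖t₂ - t₃‖) ≤ 2 * Y ∧
    |(a : ℝ)| * (‖t₀ - t₂‖ * ‖t₁ - t₃‖) ≤ 2 * Y ∧
    |(a : ℝ)| * (‖t₀ - t₃‖ * ‖t₁ - t₂‖) ≤ 2 * Y := by
  set σ₂ := t₀ * t₁ + t₀ * t₂ + t₀ * t₃ + t₁ * t₂ + t₁ * t₃ + t₂ * t₃ with hσ₂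
  have hbound : ∀ φ : ℂ, φ ^ 3 - 3 * (I : ℂ) * φ + J = 0 → ‖φ‖ ≤ 3 * Y := by
    intro φ h
    by_contra hlt
    rw [not_le] at hlt
    have h3 : ‖φ‖ ^ 3 ≤ 3 * |(I : ℝ)| * ‖φ‖ + |(J : ℝ)| := by
      rw [← norm_pow, show φ ^ 3 = 3 * (I : ℂ) * φ - J by linear_combination h]
      refine (norm_sub_le _ _).trans ?_
      simp
    have h4 : (3 * Y) ^ 2 * ‖φ‖ ≤ ‖φ‖ ^ 3 := by
      rw [pow_succ ‖φ‖ 2]
      exact mul_le_mul_of_nonneg_right (pow_le_pow_left₀ (by positivity) hlt.le 2) (norm_nonneg φ)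
    have h5 := mul_le_mul_of_nonneg_right hIY (norm_nonneg φ)
    have h6 := mul_le_mul_of_nonneg_left hlt.le (sq_nonneg Y)
    rcases hY.lt_or_eq with hY0 | rfl
    · nlinarith [mul_lt_mul_of_pos_left hlt (pow_pos hY0 2)]
    · norm_num at hIY hJY hlt
      subst hIY hJY
      norm_num at h3
      have hpos : (0 : ℝ) < ‖φ‖ ^ 3 := pow_pos (norm_pos_iff.mpr hlt) 3
      linarith
  have hA := hbound ((a : ℂ) * (3 * (t₀ * t₁ + t₂ * t₃) - σ₂)) (by rw [hI, hJ, hσ₂]; ring)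
  have hB := hbound ((a : ℂ) * (3 * (t₀ * t₂ + t₁ * t₃) - σ₂)) (by rw [hI, hJ, hσ₂]; ring)
  have hC := hbound ((a : ℂ) * (3 * (t₀ * t₃ + t₁ * t₂) - σ₂)) (by rw [hI, hJ, hσ₂]; ring)
  have key : ∀ {φ ψ x y : ℂ}, ‖φ‖ ≤ 3 * Y → ‖ψ‖ ≤ 3 * Y → φ - ψ = 3 * ((a : ℂ) * (x * y)) →
      |(a : ℝ)| * (‖x‖ * ‖y‖) ≤ 2 * Y := by
    intro φ ψ x y hφ hψ h
    have h' := norm_sub_le φ ψ
    rw [h, norm_mul, norm_mul, norm_mul, Complex.norm_intCast, Complex.norm_ofNat] at h'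
    linarith [norm_nonneg φ]
  exact ⟨key hB hC (by ring), key hA hC (by ring), key hA hB (by ring)⟩


/-- **Reduction**: an equivalent form lies in a small box. -/
theorem exists_reduced {F : QuarticForm} (hF : F.Nondegenerate) (han : F.Anisotropic) {Y : ℝ}
    (hY : 0 ≤ Y) (hIY : |(F.invI : ℝ)| ≤ Y ^ 2) (hJY : |(F.invJ : ℝ)| ≤ Y ^ 3) :
    ∃ p q r s : ℤ, p * s - q * r = 1 ∧ ∃ u v : ℝ, 1 ≤ u ∧ u ≤ v ∧ (u * v) ^ 2 ≤ 16 * Y ∧
      InBox (F.act p q r s) u v := by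
  have ha : F.a ≠ 0 := fun ha => one_ne_zero (han 1 0 (by simp [QuarticForm.eval, ha])).1
  obtain ⟨θ, hinj, ⟨σ, hσ⟩, hb, hc, hd, he⟩ := QuarticForm.exists_roots hF ha
  set M : ℝ := 2 * Y with hMdef
  obtain ⟨hM01, hM02, hM03⟩ := abs_mul_sub_le_height hY hIY hJY (a := F.a) (t₀ := θ 0) (t₁ := θ 1)
    (t₂ := θ 2) (t₃ := θ 3)
    (by simp only [QuarticForm.invI]; push_cast; rw [hb, hc, hd, he]; ring)
    (by simp only [QuarticForm.invJ]; push_cast; rw [hb, hc, hd, he]; ring)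
  rw [← hMdef] at hM01 hM02 hM03
  set aR : ℝ := |(F.a : ℝ)| with haR
  have haR0 : 0 < aR := abs_pos.2 (Int.cast_ne_zero.2 ha)
  -- the products of distances and the weights
  set P : Fin 4 → ℝ := fun i => ∏ j, if j = i then 1 else ‖θ i - θ j‖ with hPdef
  have hne : ∀ {i j : Fin 4}, i ≠ j → ‖θ i - θ j‖ ≠ 0 := fun h =>
    norm_ne_zero_iff.2 (sub_ne_zero.2 fun e => h (hinj e))
  have hPpos : ∀ i, 0 < P i := fun i => Finset.prod_pos fun j _ => by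
    split_ifs with h
    · exact one_pos
    · exact (norm_nonneg _).lt_of_ne' (hne (Ne.symm h))
  have hPσ : ∀ i, P (σ i) = P i := fun i => by
    simp only [hPdef]
    rw [← Equiv.prod_comp σ]
    refine Finset.prod_congr rfl fun j _ => ?_
    simp only [σ.injective.eq_iff, hσ, ← map_sub, Complex.norm_conj]
  set K : ℝ := Real.sqrt (aR * Real.sqrt (∏ i, P i)) with hK
  have hK0 : 0 < K := Real.sqrt_pos.2 (mul_pos haR0 (Real.sqrt_pos.2 (Finset.prod_pos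
    fun i _ => hPpos i)))
  set w : Fin 4 → ℝ := fun i => K / P i with hw
  have hw0 : ∀ i, 0 < w i := fun i => div_pos hK0 (hPpos i)
  obtain ⟨n01, n02, n03, n12, n13, n23, e01, e02, e03, e12, e13, e23⟩ :
      ∃ n01 n02 n03 n12 n13 n23 : ℝ,
      n01 = ‖θ 0 - θ 1‖ ∧ n02 = ‖θ 0 - θ 2‖ ∧ n03 = ‖θ 0 - θ 3‖ ∧ n12 = ‖θ 1 - θ 2‖ ∧
      n13 = ‖θ 1 - θ 3‖ ∧ n23 = ‖θ 2 - θ 3‖ := ⟨_, _, _, _, _, _, rfl, rfl, rfl, rfl, rfl, rfl⟩
  rw [← e01, ← e23] at hM01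
  rw [← e02, ← e13] at hM02
  rw [← e03, ← e12] at hM03
  have p01 : 0 < n01 := e01 ▸ (norm_nonneg _).lt_of_ne' (hne (by decide))
  have p02 : 0 < n02 := e02 ▸ (norm_nonneg _).lt_of_ne' (hne (by decide))
  have p03 : 0 < n03 := e03 ▸ (norm_nonneg _).lt_of_ne' (hne (by decide))
  have p12 : 0 < n12 := e12 ▸ (norm_nonneg _).lt_of_ne' (hne (by decide))
  have p13 : 0 < n13 := e13 ▸ (norm_nonneg _).lt_of_ne' (hne (by decide))
  have p23 : 0 < n23 := e23 ▸ (norm_nonneg _).lt_of_ne' (hne (by decide))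
  have hP0 : P 0 = n01 * n02 * n03 := by simp [hPdef, Fin.prod_univ_four, e01, e02, e03]
  have hP1 : P 1 = n01 * n12 * n13 := by
    simp [hPdef, Fin.prod_univ_four, e01, e12, e13, norm_sub_rev (θ 1) (θ 0)]
  have hP2 : P 2 = n02 * n12 * n23 := by
    simp [hPdef, Fin.prod_univ_four, e02, e12, e23, norm_sub_rev (θ 2) (θ 0),
      norm_sub_rev (θ 2) (θ 1)]
  have hP3 : P 3 = n03 * n13 * n23 := by
    simp [hPdef, Fin.prod_univ_four, e03, e13, e23, norm_sub_rev (θ 3) (θ 0),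
      norm_sub_rev (θ 3) (θ 1), norm_sub_rev (θ 3) (θ 2)]
  have hPi : ∏ i, P i = (n01 * n02 * n03 * n12 * n13 * n23) ^ 2 := by
    rw [Fin.prod_univ_four, hP0, hP1, hP2, hP3]; ring
  have hK2 : K ^ 2 = aR * (n01 * n02 * n03 * n12 * n13 * n23) := by
    rw [hK, Real.sq_sqrt (by positivity), hPi, Real.sqrt_sq (by positivity)]
  have hwprod : ∏ i, w i = aR ^ 2 := by
    simp only [hw, Finset.prod_div_distrib, Finset.prod_const, Finset.card_univ, Fintype.card_fin]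
    rw [hPi, show K ^ 4 = (K ^ 2) ^ 2 by ring, hK2, mul_pow]
    field_simp
  have hpair : w 0 * w 1 * n01 ^ 2 = aR * (n01 * n23) ∧ w 2 * w 3 * n23 ^ 2 = aR * (n01 * n23) ∧
      w 0 * w 2 * n02 ^ 2 = aR * (n02 * n13) ∧ w 1 * w 3 * n13 ^ 2 = aR * (n02 * n13) ∧
      w 0 * w 3 * n03 ^ 2 = aR * (n03 * n12) ∧ w 1 * w 2 * n12 ^ 2 = aR * (n03 * n12) := by
    simp only [hw, hP0, hP1, hP2, hP3, div_mul_div_comm, ← sq K, hK2]
    refine ⟨?_, ?_, ?_, ?_, ?_, ?_⟩ <;> field_simp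
  obtain ⟨q01, q23, q02, q13, q03, q12⟩ := hpair
  -- the quadratic covariant
  set A : ℝ := ∑ i, w i with hA
  set B : ℝ := ∑ i, w i * (θ i).re with hB
  set Cq : ℝ := ∑ i, w i * Complex.normSq (θ i) with hCq
  set Dt : ℝ := A * Cq - B ^ 2 with hDt
  have hA0 : 0 < A := Finset.sum_pos (fun i _ => hw0 i) Finset.univ_nonempty
  have him0 : ∑ i, w i * (θ i).im = 0 := by
    have h : ∑ i, w i * (θ i).im = -∑ i, w i * (θ i).im := by
      conv_lhs => rw [← Equiv.sum_comp σ]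
      rw [← Finset.sum_neg_distrib]
      refine Finset.sum_congr rfl fun i _ => ?_
      simp [hw, hPσ, hσ]
    linarith
  have hDteq : Dt = w 0 * w 1 * n01 ^ 2 + w 2 * w 3 * n23 ^ 2 + w 0 * w 2 * n02 ^ 2 +
      w 1 * w 3 * n13 ^ 2 + w 0 * w 3 * n03 ^ 2 + w 1 * w 2 * n12 ^ 2 := by
    simp only [Fin.sum_univ_four] at him0
    rw [hDt, hA, hB, hCq, e01, e02, e03, e12, e13, e23]
    simp only [Fin.sum_univ_four, Complex.sq_norm, Complex.normSq_apply, Complex.sub_re,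
      Complex.sub_im]
    linear_combination (w 0 * (θ 0).im + w 1 * (θ 1).im + w 2 * (θ 2).im + w 3 * (θ 3).im) * him0
  have hDtM : Dt ≤ 6 * M := by rw [hDteq, q01, q23, q02, q13, q03, q12]; linarith
  have hDt0 : 0 < Dt := by rw [hDteq, q01, q23, q02, q13, q03, q12]; positivity
  have hsq : Real.sqrt Dt ^ 2 = Dt := Real.sq_sqrt hDt0.le
  set z : ℂ := ⟨B / A, Real.sqrt Dt / A⟩ with hz
  have hQ : ∀ x y : ℝ, ∑ i, w i * Complex.normSq ((x : ℂ) - θ i * y) =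
      A * Complex.normSq ((x : ℂ) - z * y) := by
    intro x y
    have e1 : ∀ t : ℂ, Complex.normSq ((x : ℂ) - t * y) =
        x ^ 2 - 2 * x * y * t.re + y ^ 2 * Complex.normSq t := fun t => by
      simp [Complex.normSq_apply]; ring
    simp only [e1]
    rw [Complex.normSq_apply z, hz]
    simp only [mul_add, mul_sub, Finset.sum_add_distrib, Finset.sum_sub_distrib,
      mul_left_comm (w _), ← Finset.mul_sum, ← Finset.sum_mul, ← hA, ← hB, ← hCq]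
    field_simp
    linear_combination y ^ 2 * hDt - y ^ 2 * hsq
  have hzim : 0 < z.im := div_pos (Real.sqrt_pos.2 hDt0) hA0
  obtain ⟨p, q, r, s, hdet, τ, lam, him, hnorm, hre, h1, h2⟩ := FA.Thue.exists_reduce z hzim
  have hdetC : (p : ℂ) * s - q * r = 1 := by exact_mod_cast hdet
  have e1 : ((p : ℂ) - z * r) * lam = 1 := by linear_combination hdetC + r * h1 - p * h2
  have e2 : ((q : ℂ) - z * s) * lam = -τ := by
    linear_combination -τ * hdetC - q * h2 + s * h1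
  have hlam : 0 < Complex.normSq lam := Complex.normSq_pos.2 (fun h => by simp [h] at e1)
  set A' : ℝ := A * Complex.normSq ((p : ℂ) - z * r) with hA'
  set C' : ℝ := A * Complex.normSq ((q : ℂ) - z * s) with hC'
  have hN1 : Complex.normSq ((p : ℂ) - z * r) * Complex.normSq lam = 1 := by
    rw [← map_mul, e1, map_one]
  have hC'eq : C' = A' * Complex.normSq τ := by
    have h := congrArg Complex.normSq e2
    rw [map_mul, Complex.normSq_neg] at h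
    rw [hA', hC']
    refine mul_right_cancel₀ hlam.ne' ?_
    linear_combination A * h - A * Complex.normSq τ * hN1
  have hzv : z.im * Complex.normSq lam = τ.im := by
    have a1 := congrArg Complex.re h1
    have a2 := congrArg Complex.im h1
    have a3 := congrArg Complex.re h2
    have a4 := congrArg Complex.im h2
    simp at a1 a2 a3 a4
    have hdetR : (p : ℝ) * s - q * r = 1 := by exact_mod_cast hdet
    rw [Complex.normSq_apply, ← a3, ← a4]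
    linear_combination τ.im * hdetR - ((r : ℝ) * τ.re + s) * a2 + ((r : ℝ) * τ.im) * a1 +
      ((r : ℝ) * τ.re * z.re + (s : ℝ) * z.re) * a4 - ((r : ℝ) * τ.im * z.re) * a3 +
      (((r : ℝ) * τ.re + s) * z.im) * a3 + ((r : ℝ) * τ.im * z.im) * a4
  have hA'v : A' * τ.im = Real.sqrt Dt := by
    rw [← hzv, hA', show A * Complex.normSq ((p : ℂ) - z * r) * (z.im * Complex.normSq lam) =
      A * z.im * (Complex.normSq ((p : ℂ) - z * r) * Complex.normSq lam) by ring, hN1, mul_one, hz]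
    field_simp
  set α : Fin 4 → ℂ := fun i => (p : ℂ) - θ i * r
  set β : Fin 4 → ℂ := fun i => (q : ℂ) - θ i * s
  set x : Fin 4 → ℝ := fun i => Real.sqrt (w i) * ‖α i‖
  set y : Fin 4 → ℝ := fun i => Real.sqrt (w i) * ‖β i‖
  have hA'0 : 0 ≤ A' := mul_nonneg hA0.le (Complex.normSq_nonneg _)
  have hC'0 : 0 ≤ C' := mul_nonneg hA0.le (Complex.normSq_nonneg _)
  set u := Real.sqrt A'
  set v := Real.sqrt C'
  have hxu : ∀ i, x i ≤ u := fun i => by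
    refine Real.le_sqrt_of_sq_le ?_
    simp only [x, mul_pow, Real.sq_sqrt (hw0 i).le, Complex.sq_norm]
    rw [hA']
    have := hQ (p : ℝ) (r : ℝ)
    push_cast at this
    rw [← this]
    exact Finset.single_le_sum (f := fun i => w i * Complex.normSq ((p : ℂ) - θ i * r))
      (fun i _ => mul_nonneg (hw0 i).le (Complex.normSq_nonneg _)) (Finset.mem_univ i)
  have hyv : ∀ i, y i ≤ v := fun i => by
    refine Real.le_sqrt_of_sq_le ?_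
    simp only [y, mul_pow, Real.sq_sqrt (hw0 i).le, Complex.sq_norm]
    rw [hC']
    have := hQ (q : ℝ) (s : ℝ)
    push_cast at this
    rw [← this]
    exact Finset.single_le_sum (f := fun i => w i * Complex.normSq ((q : ℂ) - θ i * s))
      (fun i _ => mul_nonneg (hw0 i).le (Complex.normSq_nonneg _)) (Finset.mem_univ i)
  have hsw : Real.sqrt (w 0) * Real.sqrt (w 1) * Real.sqrt (w 2) * Real.sqrt (w 3) = aR := by
    rw [← Real.sqrt_mul (hw0 0).le, ← Real.sqrt_mul (mul_nonneg (hw0 0).le (hw0 1).le),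
      ← Real.sqrt_mul (mul_nonneg (mul_nonneg (hw0 0).le (hw0 1).le) (hw0 2).le),
      show w 0 * w 1 * w 2 * w 3 = aR ^ 2 by rw [← hwprod, Fin.prod_univ_four],
      Real.sqrt_sq haR0.le]
  have hone : ∀ z₀ z₁ z₂ z₃ : ℂ, ‖(F.a : ℂ) * (z₀ * z₁ * z₂ * z₃)‖ =
      (Real.sqrt (w 0) * ‖z₀‖) * (Real.sqrt (w 1) * ‖z₁‖) * (Real.sqrt (w 2) * ‖z₂‖) *
        (Real.sqrt (w 3) * ‖z₃‖) := by
    intro z₀ z₁ z₂ z₃
    rw [norm_mul, norm_mul, norm_mul, norm_mul, Complex.norm_intCast, ← haR, ← hsw]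
    ring
  have hterm : ∀ {a₀ a₁ a₂ a₃ b₀ b₁ b₂ b₃ : ℝ}, 0 ≤ a₀ → 0 ≤ a₁ → 0 ≤ a₂ → 0 ≤ a₃ → a₀ ≤ b₀ →
      a₁ ≤ b₁ → a₂ ≤ b₂ → a₃ ≤ b₃ → a₀ * a₁ * a₂ * a₃ ≤ b₀ * b₁ * b₂ * b₃ := by
    intro a₀ a₁ a₂ a₃ b₀ b₁ b₂ b₃ h0 h1 h2 h3 k0 k1 k2 k3
    have l0 : (0 : ℝ) ≤ b₀ := h0.trans k0
    have l1 : (0 : ℝ) ≤ b₁ := h1.trans k1
    have l2 : (0 : ℝ) ≤ b₂ := h2.trans k2
    exact mul_le_mul (mul_le_mul (mul_le_mul k0 k1 h1 l0) k2 h2 (mul_nonneg l0 l1)) k3 h3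
      (mul_nonneg (mul_nonneg l0 l1) l2)
  have hx0 : ∀ i, 0 ≤ x i := fun i => mul_nonneg (Real.sqrt_nonneg _) (norm_nonneg _)
  have hy0 : ∀ i, 0 ≤ y i := fun i => mul_nonneg (Real.sqrt_nonneg _) (norm_nonneg _)
  set G := F.act p q r s with hG
  have ea : (G.a : ℂ) = F.a * (α 0 * α 1 * α 2 * α 3) := by
    simp only [hG, QuarticForm.act, QuarticForm.eval, Int.cast_id, α]
    push_cast
    rw [hb, hc, hd, he]; ring
  have eb : (G.b : ℂ) = F.a * (β 0 * α 1 * α 2 * α 3) + F.a * (α 0 * β 1 * α 2 * α 3) +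
      F.a * (α 0 * α 1 * β 2 * α 3) + F.a * (α 0 * α 1 * α 2 * β 3) := by
    simp only [hG, QuarticForm.act, α, β]
    push_cast
    rw [hb, hc, hd, he]; ring
  have ec : (G.c : ℂ) = F.a * (β 0 * β 1 * α 2 * α 3) + F.a * (β 0 * α 1 * β 2 * α 3) +
      F.a * (β 0 * α 1 * α 2 * β 3) + F.a * (α 0 * β 1 * β 2 * α 3) +
      F.a * (α 0 * β 1 * α 2 * β 3) + F.a * (α 0 * α 1 * β 2 * β 3) := by
    simp only [hG, QuarticForm.act, α, β]
    push_cast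
    rw [hb, hc, hd, he]; ring
  have ed : (G.d : ℂ) = F.a * (α 0 * β 1 * β 2 * β 3) + F.a * (β 0 * α 1 * β 2 * β 3) +
      F.a * (β 0 * β 1 * α 2 * β 3) + F.a * (β 0 * β 1 * β 2 * α 3) := by
    simp only [hG, QuarticForm.act, α, β]
    push_cast
    rw [hb, hc, hd, he]; ring
  have ee : (G.e : ℂ) = F.a * (β 0 * β 1 * β 2 * β 3) := by
    simp only [hG, QuarticForm.act, QuarticForm.eval, Int.cast_id, β]
    push_cast
    rw [hb, hc, hd, he]; ring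
  have hba : |(G.a : ℝ)| ≤ u ^ 4 := by
    rw [← Complex.norm_intCast, ea, hone]
    exact (hterm (hx0 0) (hx0 1) (hx0 2) (hx0 3) (hxu 0) (hxu 1) (hxu 2) (hxu 3)).trans_eq
      (by ring)
  have hbb : |(G.b : ℝ)| ≤ 4 * u ^ 3 * v := by
    rw [← Complex.norm_intCast, eb]
    refine (norm_add_le _ _).trans ?_
    refine (add_le_add (norm_add₃_le) le_rfl).trans ?_
    simp only [hone]
    linarith [hterm (hy0 0) (hx0 1) (hx0 2) (hx0 3) (hyv 0) (hxu 1) (hxu 2) (hxu 3),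
      hterm (hx0 0) (hy0 1) (hx0 2) (hx0 3) (hxu 0) (hyv 1) (hxu 2) (hxu 3),
      hterm (hx0 0) (hx0 1) (hy0 2) (hx0 3) (hxu 0) (hxu 1) (hyv 2) (hxu 3),
      hterm (hx0 0) (hx0 1) (hx0 2) (hy0 3) (hxu 0) (hxu 1) (hxu 2) (hyv 3)]
  have hbc : |(G.c : ℝ)| ≤ 6 * u ^ 2 * v ^ 2 := by
    rw [← Complex.norm_intCast, ec]
    refine (norm_add_le _ _).trans ?_
    refine (add_le_add (norm_add_le _ _) le_rfl).trans ?_
    refine (add_le_add (add_le_add (norm_add_le _ _) le_rfl) le_rfl).trans ?_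
    refine (add_le_add (add_le_add (add_le_add norm_add₃_le le_rfl) le_rfl) le_rfl).trans ?_
    simp only [hone]
    linarith [hterm (hy0 0) (hy0 1) (hx0 2) (hx0 3) (hyv 0) (hyv 1) (hxu 2) (hxu 3),
      hterm (hy0 0) (hx0 1) (hy0 2) (hx0 3) (hyv 0) (hxu 1) (hyv 2) (hxu 3),
      hterm (hy0 0) (hx0 1) (hx0 2) (hy0 3) (hyv 0) (hxu 1) (hxu 2) (hyv 3),
      hterm (hx0 0) (hy0 1) (hy0 2) (hx0 3) (hxu 0) (hyv 1) (hyv 2) (hxu 3),
      hterm (hx0 0) (hy0 1) (hx0 2) (hy0 3) (hxu 0) (hyv 1) (hxu 2) (hyv 3),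
      hterm (hx0 0) (hx0 1) (hy0 2) (hy0 3) (hxu 0) (hxu 1) (hyv 2) (hyv 3)]
  have hbd : |(G.d : ℝ)| ≤ 4 * u * v ^ 3 := by
    rw [← Complex.norm_intCast, ed]
    refine (norm_add_le _ _).trans ?_
    refine (add_le_add (norm_add₃_le) le_rfl).trans ?_
    simp only [hone]
    linarith [hterm (hx0 0) (hy0 1) (hy0 2) (hy0 3) (hxu 0) (hyv 1) (hyv 2) (hyv 3),
      hterm (hy0 0) (hx0 1) (hy0 2) (hy0 3) (hyv 0) (hxu 1) (hyv 2) (hyv 3),
      hterm (hy0 0) (hy0 1) (hx0 2) (hy0 3) (hyv 0) (hyv 1) (hxu 2) (hyv 3),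
      hterm (hy0 0) (hy0 1) (hy0 2) (hx0 3) (hyv 0) (hyv 1) (hyv 2) (hxu 3)]
  have hbe : |(G.e : ℝ)| ≤ v ^ 4 := by
    rw [← Complex.norm_intCast, ee, hone]
    exact (hterm (hy0 0) (hy0 1) (hy0 2) (hy0 3) (hyv 0) (hyv 1) (hyv 2) (hyv 3)).trans_eq
      (by ring)
  have hu1 : 1 ≤ u := by
    have hne0 : G.a ≠ 0 := fun h => by
      obtain ⟨hp, hr⟩ := han p r h
      rw [hp, hr] at hdet
      omega
    have h1 : (1 : ℝ) ≤ |(G.a : ℝ)| := by exact_mod_cast Int.one_le_abs hne0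
    by_contra hh
    rw [not_le] at hh
    linarith [pow_lt_one₀ (Real.sqrt_nonneg A') hh (show 4 ≠ 0 by norm_num)]
  have hAC : A' * C' ≤ 16 * Y := by
    have hu : τ.re ^ 2 ≤ 1 / 4 := (sq_abs _).symm.trans_le
      ((pow_le_pow_left₀ (abs_nonneg _) hre 2).trans (by norm_num))
    have hn : Complex.normSq τ = τ.re ^ 2 + τ.im ^ 2 := by rw [Complex.normSq_apply, sq, sq]
    have hτ : Complex.normSq τ ≤ 4 / 3 * τ.im ^ 2 := by linarith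
    have h4 : A' * C' ≤ 4 / 3 * (A' * τ.im) ^ 2 := by
      rw [hC'eq, mul_pow]
      have := mul_le_mul_of_nonneg_left hτ (mul_nonneg hA'0 hA'0)
      linarith
    rw [hA'v, hsq] at h4
    linarith
  refine ⟨p, q, r, s, hdet, u, v, hu1, Real.sqrt_le_sqrt ?_, ?_, hba, hbb, hbc, hbd, hbe⟩
  · rw [hC'eq]
    exact le_mul_of_one_le_right hA'0 hnorm
  · rw [mul_pow, Real.sq_sqrt hA'0, Real.sq_sqrt hC'0]
    exact hAC

end FA.AverageRank
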