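import Fermat.Agent.MordellWeil.Summary
import Mathlib.RingTheory.AdjoinRoot
import Mathlib.RingTheory.Polynomial.Basic

/-!
# The `x - θ` descent in elementary form

For points `P`, `Q` with `y ≠ 0` on `y² = x³ + A x + B`: if `(x_P - θ) (x_Q - θ)` is a square modulo
`θ³ + A θ + B` then `P + Q` is a double.
-/

set_option autoImplicit false

noncomputable section

open Polynomial WeierstrassCurve

namespace FA.AverageRank

/-- `y² = x³ + A x + B`. -/
abbrev shortCurve (A B : ℚ) : WeierstrassCurve ℚ := ⟨0, 0, 0, A, B⟩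

variable {A B : ℚ}

theorem shortCurve_equation {x y : ℚ} :
    (shortCurve A B).toAffine.Equation x y ↔ y ^ 2 = x ^ 3 + A * x + B := by
  rw [Affine.equation_iff]; simp

theorem shortCurve_Δ : (shortCurve A B).Δ = -16 * (4 * A ^ 3 + 27 * B ^ 2) := by
  simp only [WeierstrassCurve.Δ, WeierstrassCurve.b₂, WeierstrassCurve.b₄, WeierstrassCurve.b₆,
    WeierstrassCurve.b₈]
  ring

theorem isElliptic_short (h : 4 * A ^ 3 + 27 * B ^ 2 ≠ 0) : (shortCurve A B).IsElliptic :=
  ⟨by rw [shortCurve_Δ, isUnit_iff_ne_zero]; exact mul_ne_zero (by norm_num) h⟩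

/-- The doubles. -/
abbrev doubles (A B : ℚ) : AddSubgroup (shortCurve A B).toAffine.Point :=
  (nsmulAddMonoidHom 2).range

/-- A line `y = m T + n` tangent at `T = k` through the point of abscissa `x` makes it a double. -/
theorem mem_doubles_of_tangent (hΔ : 4 * A ^ 3 + 27 * B ^ 2 ≠ 0) {m n k x y : ℚ}
    (hx : x = m ^ 2 - 2 * k) (hA : A = 2 * m * n + k ^ 2 + 2 * k * x) (hB : B = n ^ 2 - k ^ 2 * x)
    (h : (shortCurve A B).toAffine.Nonsingular x y) :
    Affine.Point.some x y h ∈ doubles A B := by
  set l := m * k + n with hl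
  have hkeq : l ^ 2 = k ^ 3 + A * k + B := by rw [hl, hA, hB, hx]; ring
  have hder : 3 * k ^ 2 + A = 2 * m * l := by rw [hl, hA, hx]; ring
  have hl0 : l ≠ 0 := fun h0 => hΔ (by
    rw [h0, mul_zero] at hder
    rw [h0] at hkeq
    have hA' : A = -3 * k ^ 2 := by linarith
    have hB' : B = 2 * k ^ 3 := by rw [hA'] at hkeq; linear_combination -hkeq
    rw [hA', hB']; ring)
  have hS : (shortCurve A B).toAffine.Nonsingular k l :=
    (shortCurve A B).toAffine.equation_iff_nonsingular_of_Δ_ne_zero
      (by rw [shortCurve_Δ]; exact mul_ne_zero (by norm_num) hΔ) |>.mp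
      (shortCurve_equation.mpr hkeq)
  have hne : l ≠ (shortCurve A B).toAffine.negY k l := by
    rw [Affine.negY]
    simp only [zero_mul, sub_zero]
    intro h'
    exact hl0 (by linarith)
  have hsl : (shortCurve A B).toAffine.slope k k l l = m := by
    rw [Affine.slope_of_Y_ne rfl hne, Affine.negY]
    simp only [zero_mul, mul_zero, sub_zero, add_zero]
    rw [div_eq_iff (by rw [sub_neg_eq_add, ← two_mul]; exact mul_ne_zero two_ne_zero hl0)]
    linear_combination hder
  have hX : (shortCurve A B).toAffine.addX k k m = x := by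
    rw [Affine.addX, hx]; simp; ring
  have hY : (shortCurve A B).toAffine.addY k k l m = -(m * x + n) := by
    rw [Affine.addY, Affine.negY, Affine.negAddY, hX]
    simp only [zero_mul, sub_zero]
    rw [hl]; ring
  have h2 : ∀ (y' : ℚ) (h' : (shortCurve A B).toAffine.Nonsingular x y'), y' = -(m * x + n) →
      2 • Affine.Point.some k l hS = Affine.Point.some x y' h' := by
    intro y' h' e
    rw [two_nsmul, Affine.Point.add_self_of_Y_ne hne]
    simp only [hsl, hX, hY, e]
  have hy : (y - (m * x + n)) * (y + (m * x + n)) = 0 := by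
    have := shortCurve_equation.mp h.1
    rw [hA, hB] at this
    linear_combination this + x ^ 2 * hx
  rcases mul_eq_zero.mp hy with e | e
  · refine ⟨-Affine.Point.some k l hS, ?_⟩
    show 2 • -Affine.Point.some k l hS = _
    have hn := (Affine.nonsingular_neg (W' := (shortCurve A B).toAffine) x y).mpr h
    have e' := h2 _ hn (by simp [Affine.negY]; linarith)
    rw [neg_nsmul, e', ← Affine.Point.neg_some h, neg_neg]
  · exact ⟨Affine.Point.some k l hS, h2 y h (by linarith)⟩

/-- The cubic. -/
def cubicPoly (A B : ℚ) : ℚ[X] := X ^ 3 + C A * X + C B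

theorem monic_cubicPoly (A B : ℚ) : (cubicPoly A B).Monic := by unfold cubicPoly; monicity!

theorem natDegree_cubicPoly (A B : ℚ) : (cubicPoly A B).natDegree = 3 := by
  unfold cubicPoly; compute_degree!

/-- The algebra `ℚ[θ]`. -/
abbrev CubicAlg (A B : ℚ) : Type := AdjoinRoot (cubicPoly A B)

/-- `θ`. -/
abbrev theta (A B : ℚ) : CubicAlg A B := AdjoinRoot.root (cubicPoly A B)

/-- A rational number in the algebra. -/
abbrev ratIn (A B : ℚ) (r : ℚ) : CubicAlg A B := AdjoinRoot.of (cubicPoly A B) r

theorem theta_rel (A B : ℚ) :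
    theta A B ^ 3 + ratIn A B A * theta A B + ratIn A B B = 0 := by
  have h := AdjoinRoot.eval₂_root (cubicPoly A B)
  rw [cubicPoly, eval₂_add, eval₂_add, eval₂_X_pow, eval₂_mul, eval₂_C, eval₂_C, eval₂_X] at h
  exact h

theorem quadratic_zero {a b c : ℚ}
    (h : ratIn A B a * theta A B ^ 2 + ratIn A B b * theta A B + ratIn A B c = 0) :
    a = 0 ∧ b = 0 ∧ c = 0 := by
  set q : ℚ[X] := C a * X ^ 2 + C b * X + C c
  have hq : AdjoinRoot.mk (cubicPoly A B) q = 0 := by
    simp only [q, map_add, map_mul, map_pow, AdjoinRoot.mk_C, AdjoinRoot.mk_X]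
    exact h
  have h0 : q = 0 := eq_zero_of_dvd_of_natDegree_lt (AdjoinRoot.mk_eq_zero.mp hq)
    (lt_of_le_of_lt (by simp only [q]; compute_degree)
      (natDegree_cubicPoly A B ▸ (by norm_num : 2 < 3)))
  exact ⟨by simpa [q, coeff_X, coeff_C] using congrArg (coeff · 2) h0,
    by simpa [q, coeff_C] using congrArg (coeff · 1) h0,
    by simpa [q] using congrArg (coeff · 0) h0⟩

theorem exists_coords (s : CubicAlg A B) : ∃ u v w : ℚ,
    s = ratIn A B u * theta A B ^ 2 + ratIn A B v * theta A B + ratIn A B w := by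
  induction s using AdjoinRoot.induction_on with
  | ih p =>
    set f := cubicPoly A B
    have hmod : AdjoinRoot.mk f p = AdjoinRoot.mk f (p %ₘ f) := by
      conv_lhs => rw [← modByMonic_add_div p f]
      rw [map_add, map_mul, AdjoinRoot.mk_self, zero_mul, add_zero]
    have hd : (p %ₘ f).natDegree < 3 := natDegree_cubicPoly A B ▸ natDegree_modByMonic_lt p
      (monic_cubicPoly A B) (fun h => by
        have := natDegree_cubicPoly A B
        rw [show f = cubicPoly A B from rfl] at h
        rw [h] at this
        simp at this)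
    refine ⟨(p %ₘ f).coeff 2, (p %ₘ f).coeff 1, (p %ₘ f).coeff 0, ?_⟩
    rw [hmod]
    conv_lhs => rw [(p %ₘ f).as_sum_range_C_mul_X_pow' hd]
    simp [Finset.sum_range_succ]
    ring

/-- **`x - θ` a square: a double.** -/
theorem mem_doubles_of_square (hΔ : 4 * A ^ 3 + 27 * B ^ 2 ≠ 0) {x y : ℚ}
    (h : (shortCurve A B).toAffine.Nonsingular x y) {s : CubicAlg A B}
    (hs : ratIn A B x - theta A B = s ^ 2) : Affine.Point.some x y h ∈ doubles A B := by
  obtain ⟨u, v, w, rfl⟩ := exists_coords s
  have hT := theta_rel A B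
  have hu : u ≠ 0 := by
    rintro rfl
    obtain ⟨h1, h2, -⟩ := quadratic_zero (A := A) (B := B) (a := v ^ 2) (b := 2 * v * w + 1)
      (c := w ^ 2 - x) (by
        simp only [map_add, map_mul, map_sub, map_pow, map_one, map_ofNat, map_zero] at hs ⊢
        linear_combination -hs)
    rw [pow_eq_zero_iff two_ne_zero] at h1
    rw [h1] at h2
    norm_num at h2
  set k := v / u with hk
  set m := w - v * k - u * A with hm
  set n := -(k * w + u * B) with hn
  obtain ⟨h1, h2, h3⟩ := quadratic_zero (A := A) (B := B) (a := x + 2 * k - m ^ 2)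
    (b := A - k ^ 2 - 2 * k * x - 2 * m * n) (c := B + k ^ 2 * x - n ^ 2) (by
      have e1 : ratIn A B m =
          ratIn A B w - ratIn A B v * ratIn A B k - ratIn A B u * ratIn A B A := by
        simp only [← map_mul, ← map_sub]
        rfl
      have e2 : ratIn A B n = -(ratIn A B k * ratIn A B w + ratIn A B u * ratIn A B B) := by
        simp only [← map_mul, ← map_add, ← map_neg]
        rfl
      have e3 : ratIn A B v = ratIn A B u * ratIn A B k := by
        rw [← map_mul]; congr 1; rw [hk]; field_simp
      set S := ratIn A B u * theta A B ^ 2 + ratIn A B v * theta A B + ratIn A B w with hS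
      have hl : ratIn A B m * theta A B + ratIn A B n = (theta A B - ratIn A B k) * S := by
        rw [hS]
        linear_combination theta A B * e1 + e2 - theta A B ^ 2 * e3 - ratIn A B u * hT
      simp only [map_add, map_mul, map_sub, map_pow, map_ofNat] at hs ⊢
      linear_combination hT + (theta A B - ratIn A B k) ^ 2 * hs -
        (ratIn A B m * theta A B + ratIn A B n + (theta A B - ratIn A B k) * S) * hl)
  exact mem_doubles_of_tangent hΔ (m := m) (n := n) (k := k) (by linarith) (by linarith)
    (by linarith) h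

/-- **A square product: the sum is a double.** -/
theorem add_mem_doubles (hΔ : 4 * A ^ 3 + 27 * B ^ 2 ≠ 0) {x y x' y' : ℚ}
    (h : (shortCurve A B).toAffine.Nonsingular x y)
    (h' : (shortCurve A B).toAffine.Nonsingular x' y') (hy : y ≠ 0) (hy' : y' ≠ 0) (hxx : x ≠ x')
    {s : CubicAlg A B}
    (hs : (ratIn A B x - theta A B) * (ratIn A B x' - theta A B) = s ^ 2) :
    Affine.Point.some x y h + Affine.Point.some x' y' h' ∈ doubles A B := by
  have hT := theta_rel A B
  have hunit : ∀ {X Y : ℚ}, (shortCurve A B).toAffine.Nonsingular X Y → Y ≠ 0 →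
      IsUnit (ratIn A B X - theta A B) := by
    intro X Y hXY hY
    have e := shortCurve_equation.mp hXY.1
    have eq : (ratIn A B X - theta A B) *
        (theta A B ^ 2 + theta A B * ratIn A B X + ratIn A B X ^ 2 + ratIn A B A) =
        ratIn A B (Y ^ 2) := by
      rw [e]
      simp only [map_add, map_mul, map_pow]
      linear_combination -hT
    have hU : IsUnit (ratIn A B (Y ^ 2)) :=
      (isUnit_iff_ne_zero.mpr (pow_ne_zero 2 hY)).map _
    rw [← eq] at hU
    exact isUnit_of_mul_isUnit_left hU
  rw [Affine.Point.add_of_X_ne hxx]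
  set m := (shortCurve A B).toAffine.slope x x' y y' with hm
  have hm' : m = (y - y') / (x - x') := Affine.slope_of_X_ne hxx
  set x₃ := (shortCurve A B).toAffine.addX x x' m with hx₃
  have hx₃' : x₃ = m ^ 2 - x - x' := by rw [hx₃, Affine.addX]; simp
  set n := y - m * x
  have hk : m * (x - x') = y - y' := by
    rw [hm', div_mul_cancel₀ _ (sub_ne_zero.mpr hxx)]
  have e := shortCurve_equation.mp h.1
  have e' := shortCurve_equation.mp h'.1
  have hA : A = x * x' + x * x₃ + x' * x₃ + 2 * m * n := by
    refine mul_left_cancel₀ (sub_ne_zero.mpr hxx) ?_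
    rw [hx₃']
    simp only [n]
    linear_combination e' - e - (y' + y - m * x + m * x') * hk
  have hB : B = n ^ 2 - x * x' * x₃ := by
    simp only [n] at hA ⊢
    linear_combination -e - x * hA - (x ^ 2) * hx₃'
  have hprod : (ratIn A B x - theta A B) * (ratIn A B x' - theta A B) *
      (ratIn A B x₃ - theta A B) = (ratIn A B m * theta A B + ratIn A B n) ^ 2 := by
    have a := congrArg (ratIn A B) hA
    have b := congrArg (ratIn A B) hB
    have c := congrArg (ratIn A B) hx₃'
    simp only [map_add, map_sub, map_mul, map_pow, map_ofNat] at a b c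
    linear_combination -hT + theta A B * a + b + theta A B ^ 2 * c
  have hsu : IsUnit s := by
    have := (hunit h hy).mul (hunit h' hy')
    rw [hs] at this
    exact (isUnit_pow_iff two_ne_zero).mp this
  refine mem_doubles_of_square hΔ _
    (s := (↑hsu.unit⁻¹ : CubicAlg A B) * (ratIn A B m * theta A B + ratIn A B n)) ?_
  rw [mul_pow, ← hprod, hs, ← mul_assoc, ← mul_pow, hsu.val_inv_mul, one_pow, one_mul]

end FA.AverageRank
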