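import Fermat.Agent.AverageRank.Points
import Fermat.Agent.CubicFields.Sieve
import Fermat.Agent.TwoDescent.IsogenyBound
import Mathlib.Analysis.SpecialFunctions.Pow.Real

/-!
# The average rank is bounded

The cosets of the doubles inject, up to four, into the classes of forms of given invariants, and
these number `O(T⁵)` altogether for `|A| ≤ T²`, `|B| ≤ T³`.
-/

set_option autoImplicit false
set_option linter.style.haveILetI false

noncomputable section

open WeierstrassCurve FA.SiegelPoints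
open scoped Classical

namespace FA.AverageRank

/-- The classes of the invariants of a curve. -/
def classesAt (A B : ℤ) : Set (Set QuarticForm) :=
  slClass '' {F | F.Nondegenerate ∧ F.Anisotropic ∧ F.invI = -48 * A ∧ F.invJ = -1728 * B}

theorem invariants_of_slClass {F G : QuarticForm} (h : slClass F = slClass G) :
    F.invI = G.invI ∧ F.invJ = G.invJ := by
  obtain ⟨p, q, r, s, hd, rfl⟩ := h ▸ mem_slClass_self G
  rw [QuarticForm.invI_act, QuarticForm.invJ_act, hd]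
  simp

theorem classesAt_disjoint {A B A' B' : ℤ} (h : (A, B) ≠ (A', B')) :
    Disjoint (classesAt A B) (classesAt A' B') := by
  rw [Set.disjoint_left]
  rintro c ⟨F, ⟨-, -, h1, h2⟩, rfl⟩ ⟨G, ⟨-, -, h3, h4⟩, e⟩
  obtain ⟨e1, e2⟩ := invariants_of_slClass e
  exact h (Prod.ext (by simp only; omega) (by simp only; omega))

/-- The group of rational points modulo doubles. -/
abbrev PointsModTwo (A B : ℚ) : Type := (shortCurve A B).toAffine.Point ⧸ doubles A B

/-- The points with `y = 0` and the origin. -/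
def smallPoints (A B : ℚ) : Set (shortCurve A B).toAffine.Point :=
  {P | P = 0 ∨ ∃ (x : ℚ) (h : (shortCurve A B).toAffine.Nonsingular x 0), P = .some x 0 h}

theorem smallPoints_bound (A B : ℚ) :
    (smallPoints A B).Finite ∧ (smallPoints A B).ncard ≤ 4 := by
  set f := cubicPoly A B
  have hf : f ≠ 0 := (monic_cubicPoly A B).ne_zero
  let g : (shortCurve A B).toAffine.Point → Option ℚ := fun P => match P with
    | .zero => none
    | .some x _ _ => some x
  set U : Finset (Option ℚ) := insert none (f.roots.toFinset.image some)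
  have hmap : ∀ P ∈ smallPoints A B, g P ∈ U := by
    rintro P (rfl | ⟨x, h, rfl⟩)
    · exact Finset.mem_insert_self _ _
    · refine Finset.mem_insert_of_mem (Finset.mem_image.mpr ⟨x, ?_, rfl⟩)
      rw [Multiset.mem_toFinset, Polynomial.mem_roots hf]
      have := shortCurve_equation.mp h.1
      simp [f, cubicPoly]
      linarith
  have hinj : Set.InjOn g (smallPoints A B) := by
    rintro P (rfl | ⟨x, h, rfl⟩) Q (rfl | ⟨x', h', rfl⟩) e
    · rfl
    · exact absurd e (fun e' => Option.some_ne_none x' e'.symm)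
    · exact absurd e (Option.some_ne_none x)
    · obtain rfl : x = x' := Option.some_inj.mp e
      rfl
  have hfin : (smallPoints A B).Finite :=
    Set.Finite.of_finite_image (U.finite_toSet.subset (Set.image_subset_iff.mpr hmap)) hinj
  refine ⟨hfin, ?_⟩
  calc (smallPoints A B).ncard ≤ (U : Set (Option ℚ)).ncard :=
        Set.ncard_le_ncard_of_injOn g hmap hinj U.finite_toSet
    _ = U.card := Set.ncard_coe_finset U
    _ ≤ 4 := by
      refine (Finset.card_insert_le _ _).trans ?_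
      have h1 : (f.roots.toFinset.image some).card ≤ 3 :=
        Finset.card_image_le.trans ((Multiset.toFinset_card_le _).trans
          ((Polynomial.card_roots' f).trans (natDegree_cubicPoly A B).le))
      omega

/-- **The descent injection.** -/
theorem card_modTwo_le {A B : ℤ} (hΔ : 4 * A ^ 3 + 27 * B ^ 2 ≠ 0)
    (hfin : (classesAt A B).Finite) :
    Finite (PointsModTwo (A : ℚ) B) ∧
      Nat.card (PointsModTwo (A : ℚ) B) ≤ 4 + (classesAt A B).ncard := by
  obtain ⟨hZ, hZ4⟩ := smallPoints_bound (A : ℚ) B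
  set mk : (shortCurve (A : ℚ) B).toAffine.Point → PointsModTwo (A : ℚ) B :=
    QuotientAddGroup.mk
  set Z : Set (PointsModTwo (A : ℚ) B) := mk '' smallPoints (A : ℚ) B
  have hout : ∀ q, q ∉ Z → ∃ (x y : ℚ)
      (h : (shortCurve (A : ℚ) B).toAffine.Nonsingular x y),
      y ≠ 0 ∧ mk (.some x y h) = q ∧ Affine.Point.some x y h ∉ doubles (A : ℚ) B := by
    intro q hq
    obtain ⟨P, rfl⟩ : ∃ P, mk P = q := QuotientAddGroup.mk_surjective q
    rcases P with _ | ⟨x, y, h⟩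
    · exact absurd ⟨0, Or.inl rfl, rfl⟩ hq
    refine ⟨x, y, h, ?_, rfl, fun hd => hq ⟨0, Or.inl rfl, ?_⟩⟩
    · rintro rfl
      exact hq ⟨_, Or.inr ⟨x, h, rfl⟩, rfl⟩
    · exact ((QuotientAddGroup.eq_zero_iff _).mpr hd).symm
  choose X Y hP hy hmk hnd using hout
  let Φ : ∀ q (hq : q ∉ Z), PointForm A B (X q hq) (Y q hq) := fun q hq =>
    Classical.choice (nonempty_pointForm (shortCurve_equation.mp (hP q hq).1))
  let c : ↥Zᶜ → classesAt A B := fun q => ⟨slClass (Φ q.1 q.2).F, (Φ q.1 q.2).F,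
    ⟨(Φ q.1 q.2).nondegenerate hΔ, (Φ q.1 q.2).anisotropic hΔ (hP q.1 q.2) (hnd q.1 q.2),
      (Φ q.1 q.2).hI, (Φ q.1 q.2).hJ⟩, rfl⟩
  have hc : Function.Injective c := by
    intro a b e
    have e' : slClass (Φ a.1 a.2).F = slClass (Φ b.1 b.2).F := congrArg Subtype.val e
    obtain ⟨p, q, r, s, hdet, hact⟩ := e' ▸ mem_slClass_self (Φ b.1 b.2).F
    obtain ⟨σ, hσ⟩ := (Φ a.1 a.2).square_product (Φ b.1 b.2) hdet hact
    refine Subtype.ext ?_
    rw [← hmk a.1 a.2, ← hmk b.1 b.2]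
    refine (QuotientAddGroup.eq (s := doubles (A : ℚ) B)).mpr ?_
    set P := Affine.Point.some _ _ (hP a.1 a.2)
    set Q := Affine.Point.some _ _ (hP b.1 b.2)
    by_cases hx : X a.1 a.2 = X b.1 b.2
    · rcases Affine.Y_eq_of_X_eq (hP a.1 a.2).1 (hP b.1 b.2).1 hx with hY | hY
      · have : P = Q := by simp only [P, Q, Affine.Point.some.injEq]; exact ⟨hx, hY⟩
        rw [this, neg_add_cancel]
        exact zero_mem _
      · have : P = -Q := by
          simp only [P, Q, Affine.Point.neg_some, Affine.Point.some.injEq]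
          exact ⟨hx, hY⟩
        rw [this, neg_neg, ← two_nsmul]
        exact ⟨Q, rfl⟩
    · have h := add_mem_doubles (discr_cast_ne hΔ) (hP a.1 a.2) (hP b.1 b.2) (hy a.1 a.2)
        (hy b.1 b.2) hx hσ
      rw [show -P + Q = (P + Q) - 2 • P by rw [two_nsmul]; abel]
      exact sub_mem h ⟨P, rfl⟩
  haveI := hfin.to_subtype
  have hfc : (Zᶜ : Set (PointsModTwo (A : ℚ) B)).Finite :=
    Set.finite_coe_iff.mp (Finite.of_injective c hc)
  have huniv : (Set.univ : Set (PointsModTwo (A : ℚ) B)).Finite := by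
    rw [← Set.union_compl_self Z]
    exact (hZ.image mk).union hfc
  refine ⟨Set.finite_univ_iff.mp huniv, ?_⟩
  rw [← Set.ncard_univ, ← Set.union_compl_self Z]
  refine (Set.ncard_union_le _ _).trans (add_le_add ((Set.ncard_image_le hZ).trans hZ4) ?_)
  rw [← Nat.card_coe_set_eq, ← Nat.card_coe_set_eq]
  exact Nat.card_le_card_of_injective c hc

/-- The rank. -/
def rankOf (A B : ℤ) : ℕ := Module.finrank ℤ (shortCurve (A : ℚ) B).toAffine.Point

theorem two_pow_rank_le_modTwo {A B : ℤ} (hΔ : 4 * A ^ 3 + 27 * B ^ 2 ≠ 0)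
    [hF : Finite (PointsModTwo (A : ℚ) B)] :
    2 ^ rankOf A B ≤ Nat.card (PointsModTwo (A : ℚ) B) := by
  haveI := isElliptic_short (discr_cast_ne hΔ)
  haveI := FA.MordellWeil.mordell (shortCurve (A : ℚ) B)
  haveI : Finite (AddCommGroup.torsion (shortCurve (A : ℚ) B).toAffine.Point) := by
    rcases FA.Torsion.mazur_torsion (shortCurve (A : ℚ) B) with ⟨n, hn, ⟨f⟩⟩ | ⟨m, hm, ⟨f⟩⟩
    · have : NeZero n := ⟨by rintro rfl; simp at hn⟩
      exact Finite.of_equiv _ f.toEquiv.symm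
    · have : NeZero (2 * m) := ⟨fun e => by simp at hm; omega⟩
      exact Finite.of_equiv _ f.toEquiv.symm
  have hD : (nsmulAddMonoidHom (α := (shortCurve (A : ℚ) B).toAffine.Point) 2).range.index ≠ 0 :=
    Nat.card_pos.ne'
  have h := FA.TwoDescent.card_two_mul_le_index hD
  haveI : Nonempty {t : AddCommGroup.torsion (shortCurve (A : ℚ) B).toAffine.Point // 2 • t = 0} :=
    ⟨⟨0, nsmul_zero 2⟩⟩
  exact (Nat.le_mul_of_pos_left _ Nat.card_pos).trans h

theorem two_pow_rank_le_card {A B : ℤ} (hΔ : 4 * A ^ 3 + 27 * B ^ 2 ≠ 0)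
    (hfin : (classesAt A B).Finite) : 2 ^ rankOf A B ≤ 4 + (classesAt A B).ncard := by
  obtain ⟨hF, hle⟩ := card_modTwo_le hΔ hfin
  exact (two_pow_rank_le_modTwo hΔ).trans hle

/-- The pairs counted. -/
def pairsUpTo (X : ℕ) : Finset (ℤ × ℤ) :=
  (Finset.Icc (-(X : ℤ)) X ×ˢ Finset.Icc (-(X : ℤ)) X).filter fun p =>
    |p.1| ^ 3 ≤ (X : ℤ) ∧ p.2 ^ 2 ≤ (X : ℤ) ∧ 4 * p.1 ^ 3 + 27 * p.2 ^ 2 ≠ 0

/-- The minimal pairs. -/
def minimalPairs (X : ℕ) : Finset (ℤ × ℤ) :=
  (pairsUpTo X).filter fun p => ∀ q : ℕ, q.Prime → ¬ ((q : ℤ) ^ 4 ∣ p.1 ∧ (q : ℤ) ^ 6 ∣ p.2)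

theorem card_minimalPairs {X : ℕ} {M N : ℕ} (hM : 1 ≤ M) (hN : 1 ≤ N) (hM3 : M ^ 3 ≤ X)
    (hN2 : N ^ 2 ≤ X) : (M : ℝ) * N ≤ 2 * (minimalPairs X).card := by
  set S := Finset.Icc (1 : ℕ) M ×ˢ Finset.Icc (1 : ℕ) N
  set bad : ℕ → Finset (ℕ × ℕ) := fun q =>
    ((Finset.Ioc 0 M).filter (q ^ 4 ∣ ·)) ×ˢ ((Finset.Ioc 0 N).filter (q ^ 6 ∣ ·))
  set P := (Finset.Ico 2 (M + 2)).filter Nat.Prime
  have hsub : S ⊆ (S.filter fun p => ((p.1 : ℤ), (p.2 : ℤ)) ∈ minimalPairs X) ∪ P.biUnion bad := by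
    intro p hp
    obtain ⟨h1, h2⟩ := Finset.mem_product.mp hp
    rw [Finset.mem_Icc] at h1 h2
    by_cases hb : ∃ q : ℕ, q.Prime ∧ q ^ 4 ∣ p.1 ∧ q ^ 6 ∣ p.2
    · obtain ⟨q, hq, hd1, hd2⟩ := hb
      have hq1 : q ≤ p.1 :=
        (Nat.le_self_pow (by norm_num) q).trans (Nat.le_of_dvd h1.1 hd1)
      exact Finset.mem_union_right _ (Finset.mem_biUnion.mpr ⟨q, Finset.mem_filter.mpr
        ⟨Finset.mem_Ico.mpr ⟨hq.two_le, by omega⟩, hq⟩, Finset.mem_product.mpr
        ⟨Finset.mem_filter.mpr ⟨Finset.mem_Ioc.mpr ⟨h1.1, h1.2⟩, hd1⟩,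
          Finset.mem_filter.mpr ⟨Finset.mem_Ioc.mpr ⟨h2.1, h2.2⟩, hd2⟩⟩⟩)
    · push Not at hb
      have hA3 : p.1 ^ 3 ≤ X := (Nat.pow_le_pow_left h1.2 3).trans hM3
      have hB2 : p.2 ^ 2 ≤ X := (Nat.pow_le_pow_left h2.2 2).trans hN2
      have hA1 : p.1 ≤ X := (Nat.le_self_pow (by norm_num) _).trans hA3
      have hB1 : p.2 ≤ X := (Nat.le_self_pow (by norm_num) _).trans hB2
      refine Finset.mem_union_left _ (Finset.mem_filter.mpr ⟨hp, Finset.mem_filter.mpr
        ⟨Finset.mem_filter.mpr ⟨Finset.mem_product.mpr ⟨?_, ?_⟩, ?_, ?_, ?_⟩, fun q hq hd => ?_⟩⟩)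
      · exact Finset.mem_Icc.mpr ⟨by omega, by omega⟩
      · exact Finset.mem_Icc.mpr ⟨by omega, by omega⟩
      · rw [Nat.abs_cast]; exact_mod_cast hA3
      · show ((p.2 : ℤ)) ^ 2 ≤ (X : ℤ)
        exact_mod_cast hB2
      · have : (0 : ℤ) < 4 * (p.1 : ℤ) ^ 3 + 27 * (p.2 : ℤ) ^ 2 := by
          have : (0 : ℤ) < p.1 := by exact_mod_cast h1.1
          positivity
        exact this.ne'
      · obtain ⟨d1, d2⟩ := hd
        exact hb q hq (Int.natCast_dvd_natCast.mp (by push_cast; exact d1))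
          (Int.natCast_dvd_natCast.mp (by push_cast; exact d2))
  have h := (Finset.card_le_card hsub).trans ((Finset.card_union_le _ _).trans
    (Nat.add_le_add_left Finset.card_biUnion_le _))
  have hS : S.card = M * N := by simp [S]
  have hgood : (S.filter fun p => ((p.1 : ℤ), (p.2 : ℤ)) ∈ minimalPairs X).card ≤
      (minimalPairs X).card :=
    Finset.card_le_card_of_injOn (fun p => ((p.1 : ℤ), (p.2 : ℤ)))
      (fun p hp => (Finset.mem_filter.mp hp).2) fun a _ b _ e => by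
        simp only [Prod.mk.injEq, Nat.cast_inj] at e
        exact Prod.ext e.1 e.2
  have hbad : ((∑ q ∈ P, (bad q).card : ℕ) : ℝ) ≤ (M : ℝ) * N / 2 := by
    push_cast
    calc ∑ q ∈ P, ((bad q).card : ℝ)
        ≤ ∑ q ∈ P, (M : ℝ) * N / 2 * ((q : ℝ) ^ 2)⁻¹ := by
          refine Finset.sum_le_sum fun q hq => ?_
          have hq2 : (2 : ℝ) ≤ q := by
            exact_mod_cast (Finset.mem_filter.mp hq).2.two_le
          simp only [bad]
          rw [Finset.card_product, Nat.Ioc_filter_dvd_card_eq_div, Nat.Ioc_filter_dvd_card_eq_div]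
          push_cast
          refine (mul_le_mul Nat.cast_div_le Nat.cast_div_le (Nat.cast_nonneg _)
            (by positivity)).trans ?_
          push_cast
          have h8 : (2 : ℝ) ≤ (q : ℝ) ^ 8 := hq2.trans (le_self_pow₀ (by linarith) (by norm_num))
          rw [div_mul_div_comm, ← pow_add, ← div_eq_mul_inv, div_div]
          refine div_le_div_of_nonneg_left (by positivity) (by positivity) ?_
          calc (2 : ℝ) * (q : ℝ) ^ 2 ≤ (q : ℝ) ^ 8 * (q : ℝ) ^ 2 :=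
                mul_le_mul_of_nonneg_right h8 (by positivity)
            _ = _ := by ring
      _ ≤ (M : ℝ) * N / 2 * 1 := by
          rw [← Finset.mul_sum]
          refine mul_le_mul_of_nonneg_left ((Finset.sum_le_sum_of_subset_of_nonneg
            (Finset.filter_subset _ _) fun _ _ _ => by positivity).trans
            ((FA.CubicFields.sum_inv_sq_le (by norm_num) _).trans ?_)) (by positivity)
          norm_num
      _ = _ := mul_one _
  rw [hS] at h
  have h' : ((M * N : ℕ) : ℝ) ≤ ((minimalPairs X).card : ℝ) + (∑ q ∈ P, (bad q).card : ℕ) := by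
    exact_mod_cast h.trans (Nat.add_le_add_right hgood _)
  push_cast at h' hbad
  linarith

theorem minimalPairs_subset (X : ℕ) : minimalPairs X ⊆ pairsUpTo X := Finset.filter_subset _ _

/-- Sums over the pairs of functions below `4 +` the number of classes. -/
theorem exists_sum_bound : ∃ C : ℝ, 0 ≤ C ∧ ∀ X : ℕ, 1 ≤ X → (minimalPairs X).Nonempty ∧
    ∀ f : ℤ → ℤ → ℕ, (∀ A B : ℤ, 4 * A ^ 3 + 27 * B ^ 2 ≠ 0 → (classesAt A B).Finite →
        f A B ≤ 4 + (classesAt A B).ncard) →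
      ∑ p ∈ pairsUpTo X, (f p.1 p.2 : ℝ) ≤ C * (minimalPairs X).card := by
  obtain ⟨C, hC⟩ := exists_class_bound
  refine ⟨(4 * (9 : ℝ) + C * 12 ^ 5) * 8, by positivity, fun X hX => ?_⟩
  set T : ℝ := (X : ℝ) ^ ((6 : ℝ)⁻¹)
  have hT0 : 0 ≤ T := Real.rpow_nonneg (Nat.cast_nonneg _) _
  have hT6 : T ^ 6 = (X : ℝ) := by
    have := Real.rpow_inv_natCast_pow (Nat.cast_nonneg (α := ℝ) X) (by norm_num : (6 : ℕ) ≠ 0)
    simpa using this
  have hT1 : 1 ≤ T := Real.one_le_rpow (by exact_mod_cast hX) (by norm_num)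
  set M := ⌊T ^ 2⌋₊
  set N := ⌊T ^ 3⌋₊
  have hM : (M : ℝ) ≤ T ^ 2 := Nat.floor_le (by positivity)
  have hN : (N : ℝ) ≤ T ^ 3 := Nat.floor_le (by positivity)
  have hM1 : 1 ≤ M := Nat.le_floor (by exact_mod_cast one_le_pow₀ hT1)
  have hN1 : 1 ≤ N := Nat.le_floor (by exact_mod_cast one_le_pow₀ hT1)
  have hM3 : M ^ 3 ≤ X := by
    have := pow_le_pow_left₀ (Nat.cast_nonneg _) hM 3
    rw [← pow_mul, hT6] at this
    exact_mod_cast this
  have hN2 : N ^ 2 ≤ X := by
    have := pow_le_pow_left₀ (Nat.cast_nonneg _) hN 2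
    rw [← pow_mul, hT6] at this
    exact_mod_cast this
  have hlow := card_minimalPairs hM1 hN1 hM3 hN2
  have hM2 : T ^ 2 ≤ 2 * M := by
    have h1 := Nat.lt_floor_add_one (T ^ 2)
    have : (1 : ℝ) ≤ M := by exact_mod_cast hM1
    linarith
  have hN2' : T ^ 3 ≤ 2 * N := by
    have h1 := Nat.lt_floor_add_one (T ^ 3)
    have : (1 : ℝ) ≤ N := by exact_mod_cast hN1
    linarith
  have h5 : T ^ 5 ≤ 8 * ((minimalPairs X).card : ℝ) := by
    have := mul_le_mul hM2 hN2' (by positivity) (by positivity)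
    rw [show T ^ 5 = T ^ 2 * T ^ 3 by ring]
    linarith
  refine ⟨Finset.card_pos.mp ?_, fun f hf => ?_⟩
  · have : (0 : ℝ) < (minimalPairs X).card := by linarith [one_le_pow₀ (n := 5) hT1]
    exact_mod_cast this
  obtain ⟨hfin, hle⟩ := hC (12 * T) (by linarith)
  have hbd : ∀ p ∈ pairsUpTo X, |(p.1 : ℝ)| ≤ T ^ 2 ∧ |(p.2 : ℝ)| ≤ T ^ 3 ∧
      4 * p.1 ^ 3 + 27 * p.2 ^ 2 ≠ 0 := by
    intro p hp
    obtain ⟨-, ha, hb, hne⟩ := Finset.mem_filter.mp hp
    have ha' : |(p.1 : ℝ)| ^ 3 ≤ (T ^ 2) ^ 3 := by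
      rw [← pow_mul, hT6]; exact_mod_cast ha
    have hb' : |(p.2 : ℝ)| ^ 2 ≤ (T ^ 3) ^ 2 := by
      rw [← pow_mul, hT6, sq_abs]; exact_mod_cast hb
    exact ⟨(pow_le_pow_iff_left₀ (abs_nonneg _) (by positivity) three_ne_zero).mp ha',
      (pow_le_pow_iff_left₀ (abs_nonneg _) (by positivity) two_ne_zero).mp hb', hne⟩
  have hsub : ∀ p ∈ pairsUpTo X, classesAt p.1 p.2 ⊆ countedClasses (12 * T) := by
    intro p hp
    obtain ⟨ha, hb, -⟩ := hbd p hp
    rintro c ⟨F, ⟨h1, h2, h3, h4⟩, rfl⟩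
    refine ⟨F, ⟨h1, h2, ?_, ?_⟩, rfl⟩
    · rw [h3]; push_cast; rw [abs_mul, abs_neg, Nat.abs_ofNat]
      nlinarith
    · rw [h4]; push_cast; rw [abs_mul, abs_neg, Nat.abs_ofNat]
      nlinarith
  have hclass : ∑ p ∈ pairsUpTo X, (classesAt p.1 p.2).ncard ≤
      (countedClasses (12 * T)).ncard := by
    rw [← finsum_mem_coe_finset,
      ← Set.Finite.ncard_biUnion (pairsUpTo X).finite_toSet (fun p hp => hfin.subset (hsub p hp))
        (fun p _ q _ hpq => classesAt_disjoint hpq)]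
    exact Set.ncard_le_ncard (Set.iUnion₂_subset hsub) hfin
  have hcard : ((pairsUpTo X).card : ℝ) ≤ 9 * T ^ 5 := by
    have hs : pairsUpTo X ⊆ Finset.Icc (-(M : ℤ)) M ×ˢ Finset.Icc (-(N : ℤ)) N := by
      intro p hp
      obtain ⟨ha, hb, -⟩ := hbd p hp
      have ha' : (p.1.natAbs : ℝ) ≤ T ^ 2 := by rw [Nat.cast_natAbs, Int.cast_abs]; exact ha
      have hb' : (p.2.natAbs : ℝ) ≤ T ^ 3 := by rw [Nat.cast_natAbs, Int.cast_abs]; exact hb
      have := Nat.le_floor ha'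
      have := Nat.le_floor hb'
      exact Finset.mem_product.mpr ⟨Finset.mem_Icc.mpr ⟨by omega, by omega⟩,
        Finset.mem_Icc.mpr ⟨by omega, by omega⟩⟩
    have h := Finset.card_le_card hs
    rw [Finset.card_product, card_Icc_sym, card_Icc_sym] at h
    have h' : ((pairsUpTo X).card : ℝ) ≤ (2 * (M : ℝ) + 1) * (2 * (N : ℝ) + 1) := by
      exact_mod_cast h
    have e2 : 2 * (M : ℝ) + 1 ≤ 3 * T ^ 2 := by linarith [one_le_pow₀ (n := 2) hT1]
    have e3 : 2 * (N : ℝ) + 1 ≤ 3 * T ^ 3 := by linarith [one_le_pow₀ (n := 3) hT1]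
    have := mul_le_mul e2 e3 (by positivity) (by positivity)
    linarith
  calc ∑ p ∈ pairsUpTo X, (f p.1 p.2 : ℝ)
      ≤ ∑ p ∈ pairsUpTo X, ((4 : ℝ) + (classesAt p.1 p.2).ncard) := by
        refine Finset.sum_le_sum fun p hp => ?_
        exact_mod_cast hf _ _ (hbd p hp).2.2 (hfin.subset (hsub p hp))
    _ ≤ 4 * (9 * T ^ 5) + C * (12 * T) ^ 5 := by
        rw [Finset.sum_add_distrib, Finset.sum_const, nsmul_eq_mul]
        refine add_le_add (by linarith) (le_trans ?_ hle)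
        exact_mod_cast hclass
    _ = (4 * 9 + C * 12 ^ 5) * T ^ 5 := by ring
    _ ≤ (4 * 9 + C * 12 ^ 5) * (8 * (minimalPairs X).card) :=
        mul_le_mul_of_nonneg_left h5 (by positivity)
    _ = _ := by ring

/-- **The average of `2 ^ rank` is bounded.** -/
theorem exists_rank_bound : ∃ C : ℝ, 0 ≤ C ∧ ∀ X : ℕ, 1 ≤ X → (minimalPairs X).Nonempty ∧
    ∑ p ∈ pairsUpTo X, (2 : ℝ) ^ rankOf p.1 p.2 ≤ C * (minimalPairs X).card := by
  obtain ⟨C, hC0, hC⟩ := exists_sum_bound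
  refine ⟨C, hC0, fun X hX => ⟨(hC X hX).1, ?_⟩⟩
  simpa using (hC X hX).2 (fun A B => 2 ^ rankOf A B) fun A B => two_pow_rank_le_card

/-- **The average order of the points modulo doubles is bounded.** -/
theorem exists_modTwo_bound : ∃ C : ℝ, 0 ≤ C ∧ ∀ X : ℕ, 1 ≤ X → (minimalPairs X).Nonempty ∧
    ∑ p ∈ pairsUpTo X, (Nat.card (PointsModTwo (p.1 : ℚ) p.2) : ℝ) ≤
      C * (minimalPairs X).card := by
  obtain ⟨C, hC0, hC⟩ := exists_sum_bound
  exact ⟨C, hC0, fun X hX => ⟨(hC X hX).1, (hC X hX).2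
    (fun A B => Nat.card (PointsModTwo (A : ℚ) B)) fun A B h hf => (card_modTwo_le h hf).2⟩⟩

end FA.AverageRank
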