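import Fermat.Agent.AverageRank.Count
import Fermat.Agent.AverageRank.Descent

/-!
# The quartic form of a rational point

A point on `y² = x³ + A x + B` gives an integral form of invariants `-48 A`, `-1728 B`; it has no
rational zero unless the point is a double, and equivalent forms come from points whose sum is a
double.
-/

set_option autoImplicit false

noncomputable section

open Polynomial WeierstrassCurve FA.SiegelPoints

namespace FA.AverageRank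

/-- The monic integral quartic of a point `(X / D², Y / D³)`. -/
def pointQuartic (A X Y D : ℤ) : QuarticForm := ⟨1, 0, -6 * X, 8 * Y, -4 * A * D ^ 4 - 3 * X ^ 2⟩

/-- An integral form attached to a point. -/
structure PointForm (A B : ℤ) (x y : ℚ) where
  /-- The form. -/
  F : QuarticForm
  /-- The numerator of `x`. -/
  X : ℤ
  /-- The numerator of `y`. -/
  Y : ℤ
  /-- The denominator. -/
  D : ℤ
  /-- The shift. -/
  beta : ℤ
  hD : D ≠ 0
  hx : x * (D : ℚ) ^ 2 = X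
  hy : y * (D : ℚ) ^ 3 = Y
  hYX : Y ^ 2 = X ^ 3 + A * X * D ^ 4 + B * D ^ 6
  hI : F.invI = -48 * A
  hJ : F.invJ = -1728 * B
  ha : F.a = D ^ 2
  hhess : 3 * F.b ^ 2 - 8 * F.a * F.c = 48 * X
  hact : (pointQuartic A X Y D).act (D ^ 2) beta 0 1 =
    ⟨D ^ 6 * F.a, D ^ 6 * F.b, D ^ 6 * F.c, D ^ 6 * F.d, D ^ 6 * F.e⟩

theorem nonempty_pointForm {A B : ℤ} {x y : ℚ} (hxy : y ^ 2 = x ^ 3 + A * x + B) :
    Nonempty (PointForm A B x y) := by
  have e : y.num ^ 2 * (x.den : ℤ) ^ 3 =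
      (x.num ^ 3 + (A * x.num + B * (x.den : ℤ)) * (x.den : ℤ) ^ 2) * (y.den : ℤ) ^ 2 := by
    have hxd : (x.den : ℚ) ≠ 0 := by exact_mod_cast x.den_nz
    have hyd : (y.den : ℚ) ≠ 0 := by exact_mod_cast y.den_nz
    rw [← x.num_div_den, ← y.num_div_den] at hxy
    field_simp at hxy
    exact_mod_cast (by linear_combination hxy : (y.num : ℚ) ^ 2 * (x.den : ℚ) ^ 3 =
      ((x.num : ℚ) ^ 3 + (A * x.num + B * (x.den : ℚ)) * (x.den : ℚ) ^ 2) * (y.den : ℚ) ^ 2)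
  have hpow : x.den ^ 3 = y.den ^ 2 := by
    have h1 : IsCoprime ((x.den : ℤ) ^ 3)
        (x.num ^ 3 + (A * x.num + B * (x.den : ℤ)) * (x.den : ℤ) ^ 2) := by
      refine IsCoprime.pow_left ?_
      rw [show x.num ^ 3 + (A * x.num + B * (x.den : ℤ)) * (x.den : ℤ) ^ 2 =
        x.num ^ 3 + (x.den : ℤ) * ((A * x.num + B * (x.den : ℤ)) * x.den) by ring]
      exact ((Rat.isCoprime_num_den x).symm.pow_right).add_mul_left_right _
    have h2 : IsCoprime ((y.den : ℤ) ^ 2) (y.num ^ 2) := (Rat.isCoprime_num_den y).symm.pow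
    refine Nat.dvd_antisymm (Int.natCast_dvd_natCast.1 ?_) (Int.natCast_dvd_natCast.1 ?_) <;>
      push_cast
    · exact h1.dvd_of_dvd_mul_left ⟨y.num ^ 2, by linarith⟩
    · exact h2.dvd_of_dvd_mul_left
        ⟨x.num ^ 3 + (A * x.num + B * (x.den : ℤ)) * (x.den : ℤ) ^ 2, by linarith⟩
  obtain ⟨d, hxd, hyd⟩ := Nat.exists_eq_pow_of_exponent_coprime_of_pow_eq_pow
    (by decide : Nat.Coprime 3 2) hpow
  set D := (d : ℤ) with hDdef
  have hd0 : D ≠ 0 := by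
    intro h; exact x.den_nz (by rw [hxd]; simp [Int.natCast_eq_zero.1 h])
  set X := x.num
  set Y := y.num
  have hYX : Y ^ 2 = X ^ 3 + A * X * D ^ 4 + B * D ^ 6 := by
    rw [hxd, hyd] at e
    push_cast at e
    exact mul_right_cancel₀ (pow_ne_zero 6 hd0) (by linear_combination e)
  obtain ⟨u, v, huv⟩ : IsCoprime X (D ^ 6) := by
    have h := Rat.isCoprime_num_den x
    rw [hxd, Nat.cast_pow] at h
    simpa [← pow_mul] using h.pow_right (n := 3)
  set β := Y * u with hβ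
  set k₁ := -(X ^ 2 * v) - A * D ^ 4 * v + B * u with hk₁
  set g := u * A + u * D ^ 2 * k₁ - X * v * D ^ 2 with hg
  set k₂ := X * u * k₁ - X ^ 2 * v - A * D ^ 4 * v with hk₂
  have hYu : Y ^ 2 * u = X ^ 2 + A * D ^ 4 + D ^ 6 * k₁ := by
    rw [hk₁]; linear_combination u * hYX + (X ^ 2 + A * D ^ 4) * huv
  have hε : β ^ 2 - X = D ^ 4 * g := by
    rw [hβ, hg]; linear_combination u * hYu + X * huv
  have hXε : X * (β ^ 2 - X) = A * D ^ 4 + D ^ 6 * k₂ := by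
    rw [hε, hg, hk₂]; linear_combination A * D ^ 4 * huv
  have hdeq : β ^ 3 - 3 * X * β + 2 * Y = D ^ 4 * (β * g + 2 * Y * v * D ^ 2) := by
    linear_combination β * hε - 2 * X * hβ - 2 * Y * huv
  have hact : (pointQuartic A X Y D).act (D ^ 2) β 0 1 =
      ⟨D ^ 6 * D ^ 2, D ^ 6 * (4 * β), D ^ 6 * (6 * (D ^ 2 * g)),
        D ^ 6 * (4 * (β * g + 2 * Y * v * D ^ 2)), D ^ 6 * (D ^ 2 * g ^ 2 + 8 * k₁ - 4 * k₂)⟩ := by
    ext <;> simp only [QuarticForm.act, QuarticForm.eval, pointQuartic, Int.cast_id]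
    · ring
    · ring
    · linear_combination 6 * D ^ 4 * hε
    · linear_combination 4 * D ^ 2 * hdeq
    · linear_combination (β ^ 2 - X + D ^ 4 * g) * hε + 8 * Y * hβ + 8 * hYu - 4 * hXε
  set F : QuarticForm := ⟨D ^ 2, 4 * β, 6 * (D ^ 2 * g), 4 * (β * g + 2 * Y * v * D ^ 2),
    D ^ 2 * g ^ 2 + 8 * k₁ - 4 * k₂⟩ with hF
  have hI : F.invI = -48 * A := by
    have h := (pointQuartic A X Y D).invI_act (D ^ 2) β 0 1
    rw [hact] at h
    refine mul_left_cancel₀ (pow_ne_zero 12 hd0) ?_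
    simp only [QuarticForm.invI, hF, pointQuartic] at h ⊢
    linear_combination h
  have hJ : F.invJ = -1728 * B := by
    have h := (pointQuartic A X Y D).invJ_act (D ^ 2) β 0 1
    rw [hact] at h
    refine mul_left_cancel₀ (pow_ne_zero 18 hd0) ?_
    simp only [QuarticForm.invJ, hF, pointQuartic] at h ⊢
    linear_combination h - 1728 * D ^ 12 * hYX
  have hxq : x * (D : ℚ) ^ 2 = X := by
    have := Rat.mul_den_eq_num x
    rw [hxd] at this
    simpa [hDdef] using this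
  have hyq : y * (D : ℚ) ^ 3 = Y := by
    have := Rat.mul_den_eq_num y
    rw [hyd] at this
    simpa [hDdef] using this
  exact ⟨⟨F, X, Y, D, β, hd0, hxq, hyq, hYX, hI, hJ, rfl,
    by simp only [hF]; linear_combination 48 * hε, hact⟩⟩

variable {A B : ℤ} {x y : ℚ}

theorem PointForm.eval_eq (Φ : PointForm A B x y) {R : Type*} [CommRing R] (U W : R) :
    (Φ.D : R) ^ 6 * Φ.F.eval U W =
      (pointQuartic A Φ.X Φ.Y Φ.D).eval ((Φ.D : R) ^ 2 * U + Φ.beta * W) W := by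
  have h := (pointQuartic A Φ.X Φ.Y Φ.D).eval_act (Φ.D ^ 2) Φ.beta 0 1 U W
  rw [Φ.hact] at h
  simp only [QuarticForm.eval] at h ⊢
  push_cast at h
  linear_combination h

theorem PointForm.hess_eq (Φ : PointForm A B x y) {R : Type*} [CommRing R] (U W : R) :
    (Φ.D : R) ^ 12 * Φ.F.hess U W = (Φ.D : R) ^ 4 *
      (pointQuartic A Φ.X Φ.Y Φ.D).hess ((Φ.D : R) ^ 2 * U + Φ.beta * W) W := by
  have h := (pointQuartic A Φ.X Φ.Y Φ.D).hess_act (Φ.D ^ 2) Φ.beta 0 1 U W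
  rw [Φ.hact] at h
  simp only [QuarticForm.hess] at h ⊢
  push_cast at h
  linear_combination h

theorem PointForm.nondegenerate (Φ : PointForm A B x y) (hΔ : 4 * A ^ 3 + 27 * B ^ 2 ≠ 0) :
    Φ.F.Nondegenerate := by
  rw [QuarticForm.Nondegenerate, Φ.hI, Φ.hJ]
  intro h
  exact hΔ (mul_left_cancel₀ (show (-110592 : ℤ) ≠ 0 by norm_num) (by linear_combination h))

theorem discr_cast_ne {A B : ℤ} (hΔ : 4 * A ^ 3 + 27 * B ^ 2 ≠ 0) :
    4 * (A : ℚ) ^ 3 + 27 * (B : ℚ) ^ 2 ≠ 0 := by exact_mod_cast hΔ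

/-- **A rational zero only for doubles.** -/
theorem PointForm.anisotropic (Φ : PointForm A B x y) (hΔ : 4 * A ^ 3 + 27 * B ^ 2 ≠ 0)
    (h : (shortCurve A B).toAffine.Nonsingular x y)
    (hnd : Affine.Point.some x y h ∉ doubles (A : ℚ) B) : Φ.F.Anisotropic := by
  intro p r h0
  have hz : ((pointQuartic A Φ.X Φ.Y Φ.D).eval ((Φ.D : ℤ) ^ 2 * p + Φ.beta * r) r : ℤ) = 0 := by
    have := Φ.eval_eq (R := ℤ) p r
    simp only [Int.cast_id] at this
    rw [← this, h0, mul_zero]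
  by_cases hr : r = 0
  · subst hr
    simp only [QuarticForm.eval, Int.cast_id, Φ.ha] at h0
    refine ⟨?_, rfl⟩
    by_contra hp
    exact mul_ne_zero (pow_ne_zero 2 Φ.hD) (pow_ne_zero 4 hp) (by linarith)
  exfalso
  set U : ℤ := Φ.D ^ 2 * p + Φ.beta * r
  have hD : (Φ.D : ℚ) ≠ 0 := Int.cast_ne_zero.mpr Φ.hD
  have hr' : (r : ℚ) ≠ 0 := Int.cast_ne_zero.mpr hr
  set t : ℚ := U / (r * Φ.D) with ht
  have htU : (U : ℚ) = t * (r * Φ.D) := by rw [ht, div_mul_cancel₀ _ (mul_ne_zero hr' hD)]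
  have hq : t ^ 4 - 6 * x * t ^ 2 + 8 * y * t - 4 * (A : ℚ) - 3 * x ^ 2 = 0 := by
    have hz' : ((pointQuartic A Φ.X Φ.Y Φ.D).eval (U : ℤ) r : ℤ) = 0 := hz
    have := congrArg (Int.cast : ℤ → ℚ) hz'
    simp only [QuarticForm.eval, pointQuartic, Int.cast_id] at this
    push_cast at this
    rw [htU, ← Φ.hx, ← Φ.hy] at this
    refine (mul_eq_zero.mp (?_ : ((r : ℚ) * Φ.D) ^ 4 *
      (t ^ 4 - 6 * x * t ^ 2 + 8 * y * t - 4 * (A : ℚ) - 3 * x ^ 2) = 0)).resolve_left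
      (pow_ne_zero 4 (mul_ne_zero hr' hD))
    linear_combination this
  have e := shortCurve_equation.mp h.1
  refine hnd (mem_doubles_of_tangent (discr_cast_ne hΔ) (m := t) (n := y - t * x)
    (k := (t ^ 2 - x) / 2) (by ring) ?_ ?_ h)
  · linear_combination -hq / 4
  · linear_combination x / 4 * hq - e

/-- **Equivalent forms: a square product.** -/
theorem PointForm.square_product {x' y' : ℚ} (Φ : PointForm A B x y) (Ψ : PointForm A B x' y')
    {p q r s : ℤ} (hdet : p * s - q * r = 1) (he : Φ.F.act p q r s = Ψ.F) :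
    ∃ σ : CubicAlg (A : ℚ) B,
      (ratIn (A : ℚ) B x - theta (A : ℚ) B) * (ratIn (A : ℚ) B x' - theta (A : ℚ) B) = σ ^ 2 := by
  set θ := theta (A : ℚ) B
  set D : CubicAlg (A : ℚ) B := (Φ.D : CubicAlg (A : ℚ) B) with hDdef
  set D' : CubicAlg (A : ℚ) B := (Ψ.D : CubicAlg (A : ℚ) B) with hD'def
  set X : CubicAlg (A : ℚ) B := (Φ.X : CubicAlg (A : ℚ) B)
  set Y : CubicAlg (A : ℚ) B := (Φ.Y : CubicAlg (A : ℚ) B)
  set T := θ * D ^ 2
  set U : CubicAlg (A : ℚ) B := D ^ 2 * p + Φ.beta * r with hU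
  set W : CubicAlg (A : ℚ) B := (r : CubicAlg (A : ℚ) B)
  set L := (X - T) * U ^ 2 - 2 * Y * U * W + (X - T) * (X + 2 * T) * W ^ 2
  have hT : θ ^ 3 + (A : CubicAlg (A : ℚ) B) * θ + (B : CubicAlg (A : ℚ) B) = 0 := by
    simpa [ratIn] using theta_rel (A : ℚ) B
  have hYX : Y ^ 2 = X ^ 3 + (A : CubicAlg (A : ℚ) B) * X * D ^ 4 +
      (B : CubicAlg (A : ℚ) B) * D ^ 6 := by
    have := congrArg (Int.cast : ℤ → CubicAlg (A : ℚ) B) Φ.hYX
    push_cast at this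
    exact this
  have key : (X - T) * ((pointQuartic A Φ.X Φ.Y Φ.D).hess U W -
      48 * T * (pointQuartic A Φ.X Φ.Y Φ.D).eval U W) = 48 * L ^ 2 := by
    simp only [QuarticForm.hess, QuarticForm.eval, pointQuartic, L, T]
    push_cast
    linear_combination (192 * (X - θ * D ^ 2) * W ^ 4 - 192 * U ^ 2 * W ^ 2) *
      (hYX + D ^ 6 * hT)
  have hev : (Φ.F.eval p r : ℤ) = Ψ.F.a := by
    rw [← he]; simp [QuarticForm.act]
  have hhe : (Φ.F.hess p r : ℤ) = 48 * Ψ.X := by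
    rw [← Ψ.hhess, ← he]
    have h := Φ.F.hess_act (R := ℤ) p q r s 1 0
    simp only [Int.cast_id, hdet] at h
    rw [show (Φ.F.act p q r s).hess (1 : ℤ) 0 = 3 * (Φ.F.act p q r s).b ^ 2 -
      8 * (Φ.F.act p q r s).a * (Φ.F.act p q r s).c by simp [QuarticForm.hess]] at h
    simpa using h.symm
  have hev' : Φ.F.eval (p : CubicAlg (A : ℚ) B) (r : CubicAlg (A : ℚ) B) = D' ^ 2 := by
    have h := congrArg (Int.cast : ℤ → CubicAlg (A : ℚ) B) (hev.trans Ψ.ha)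
    simp only [QuarticForm.eval, Int.cast_id] at h ⊢
    push_cast at h
    exact h
  have hhe' : Φ.F.hess (p : CubicAlg (A : ℚ) B) (r : CubicAlg (A : ℚ) B) = 48 * Ψ.X := by
    have h := congrArg (Int.cast : ℤ → CubicAlg (A : ℚ) B) hhe
    simp only [QuarticForm.hess, Int.cast_id] at h ⊢
    push_cast at h
    exact h
  have h1 := Φ.eval_eq (R := CubicAlg (A : ℚ) B) p r
  have h2 := Φ.hess_eq (R := CubicAlg (A : ℚ) B) p r
  rw [hev', ← hU] at h1
  rw [hhe', ← hU] at h2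
  have e48 : IsUnit ((48 : CubicAlg (A : ℚ) B) * D ^ 4) := by
    have hr : (48 : CubicAlg (A : ℚ) B) * D ^ 4 = ratIn (A : ℚ) B (48 * (Φ.D : ℚ) ^ 4) := by
      simp [ratIn, hDdef, map_ofNat]
    rw [hr]
    exact (isUnit_iff_ne_zero.mpr (mul_ne_zero (by norm_num)
      (pow_ne_zero 4 (Int.cast_ne_zero.mpr Φ.hD)))).map _
  have main : D ^ 8 * (X - T) * ((Ψ.X : CubicAlg (A : ℚ) B) - θ * D' ^ 2) = L ^ 2 := by
    refine e48.mul_left_cancel ?_
    linear_combination D ^ 4 * key + (X - T) * h2 - 48 * θ * D ^ 6 * (X - T) * h1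
  have hD5 : IsUnit (D ^ 5 * D') := by
    rw [show D ^ 5 * D' = ratIn (A : ℚ) B ((Φ.D : ℚ) ^ 5 * (Ψ.D : ℚ)) by
      simp [ratIn, hDdef, hD'def]]
    exact (isUnit_iff_ne_zero.mpr (mul_ne_zero (pow_ne_zero 5 (Int.cast_ne_zero.mpr Φ.hD))
      (Int.cast_ne_zero.mpr Ψ.hD))).map _
  refine ⟨L * ↑hD5.unit⁻¹, ?_⟩
  refine (hD5.pow 2).mul_left_cancel ?_
  rw [show (D ^ 5 * D') ^ 2 * (L * ↑hD5.unit⁻¹) ^ 2 =
    L ^ 2 * (D ^ 5 * D' * ↑hD5.unit⁻¹) ^ 2 by ring, hD5.mul_val_inv, one_pow, mul_one, ← main]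
  have hx1 : ratIn (A : ℚ) B x * D ^ 2 = X := by
    rw [hDdef, ← map_intCast (AdjoinRoot.of (cubicPoly (A : ℚ) B)), ← map_pow, ← map_mul, Φ.hx,
      map_intCast]
  have hx2 : ratIn (A : ℚ) B x' * D' ^ 2 = (Ψ.X : CubicAlg (A : ℚ) B) := by
    rw [hD'def, ← map_intCast (AdjoinRoot.of (cubicPoly (A : ℚ) B)), ← map_pow, ← map_mul, Ψ.hx,
      map_intCast]
  rw [← hx1, ← hx2]
  ring

end FA.AverageRank
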